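import Mathlib
import Fermat.Agent.H86.SS2.Emb3Defs
import Fermat.Agent.H31.SS.Haupt9

/-!
# P-SS2, row SS2-C1 (EMB3) at level 9 : INTERFACE TWIN (helper41)

Level-9 twin of helper86's `Fermat.Agent.H86.SS2.Emb3Defs`, needed for `q = 2` (frozen S36
quantifies over all primes `q ≠ λ` with `q² ∥ M`, `λ ≠ 2`).

Level `L = M' q` (`9 ∣ M'`, `q ≠ 3` prime, `q ∤ M'`), Hauptmodul `H = h9S` of level 9
(helper31, `Fermat.Agent.H31.SS.h9S`, `H = t⁻¹ - 3 + …`).

SAME short names as in `Fermat.Agent.H86.SS2` for everything that depends on the Hauptmodul: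

* series `sH`, `sH1`, `sH2`, `sX1`, `sY1`, `sZ`, `sX2` (with `h9S` instead of `h4S`);
* `ModelKron2Statement`, `ModelRedStatement`, `ModelNormZStatement`, `Emb3Statement`
  (hypotheses `q ≠ 3`, `9 ∣ M'` instead of `q ≠ 2`, `4 ∣ M'`).

Everything that does NOT depend on the Hauptmodul is RE-USED from `Fermat.Agent.H86.SS2`
(`IsVUnit`, `gaussV`, `IsAL2`, `AL2ExistsStatement`, `ExtExistsStatement`, `EisUnifStatement`,
`PowIndepStatement`, `ModelDegreeStatement`, `IsIntSeries`, `V10`, `V01`, `V20`, `V02`,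
`Emb3Data`).

A twin of a level-4 file is obtained by replacing `open Fermat.Agent.H86.SS2` by
`open Fermat.Agent.H86.SS2 hiding sH sH1 sH2 sX1 sY1 sZ sX2 sX2_eq ModelKron2Statement
ModelRedStatement ModelNormZStatement Emb3Statement` + `open Fermat.Agent.H41.SS2N`, and
`h4S` by `h9S` (`open Fermat.Agent.H31.SS`).
-/

set_option autoImplicit false

noncomputable section

namespace Fermat.Agent.H41.SS2N

open Polynomial ModularCurve AlgebraicCurve
open Fermat.Agent.H22.KL Fermat.Agent.H8.SS Fermat.Agent.H7.SS Fermat.Agent.H82.SS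
open Fermat.Agent.H31.SS
open Fermat.Agent.H86.SS2 hiding sH sH1 sH2 sX1 sY1 sZ sX2 sX2_eq ModelKron2Statement
  ModelRedStatement ModelNormZStatement Emb3Statement

/-! ### The series -/

section Series

variable (R : Type) [CommRing R] (q : ℕ) [NeZero q]

/-- `H`, the Hauptmodul of level 9. -/
def sH : LaurentSeries R := h9S R

/-- `H1 = H(t^q)`. -/
def sH1 : LaurentSeries R := qExpand R q (h9S R)

/-- `H2 = H(t^(q²))`. -/
def sH2 : LaurentSeries R := qExpand R q (qExpand R q (h9S R))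

/-- `X1 = H1 - H^q`. -/
def sX1 : LaurentSeries R := sH1 R q - sH R ^ q

/-- `Y1 = H - H1^q`. -/
def sY1 : LaurentSeries R := sH R - sH1 R q ^ q

/-- `Z = H2 - H`. -/
def sZ : LaurentSeries R := sH2 R q - sH R

/-- `X2 = H2 - H1^q`. -/
def sX2 : LaurentSeries R := sH2 R q - sH1 R q ^ q

theorem sX2_eq : sX2 R q = sZ R q + sY1 R q := by
  unfold sX2 sZ sY1
  ring

end Series

/-! ### Modular sub-rows -/

/-- **Sub-row KRON2 at level 9** (twin of `Fermat.Agent.H86.SS2.ModelKron2Statement`). -/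
def ModelKron2Statement (M' q : ℕ) [NeZero M'] [NeZero q] [Fact q.Prime] : Prop :=
  q ≠ 3 → 9 ∣ M' → ¬ q ∣ M' →
  ∀ (K₁ : Type) [Field K₁] [Algebra ℚ K₁] [FiniteDimensional ℚ K₁]
    (Wq : ModelField K₁ (M' * q) ≃ₐ[K₁] ModelField K₁ (M' * q)),
    IsAtkinLehnerModel K₁ M' q Wq →
    ∃ G : Polynomial (ModelField K₁ (M' * q)),
      G.natDegree < q ∧
      (∀ i, ∃ g : LaurentSeries ℤ,
        ((G.coeff i : ModelField K₁ (M' * q)) : LaurentSeries K₁) =
          coeffMap (Int.castRingHom K₁) g) ∧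
      (∀ i, ∃ g : LaurentSeries ℤ,
        ((Wq (G.coeff i) : ModelField K₁ (M' * q)) : LaurentSeries K₁) =
          coeffMap (Int.castRingHom K₁) g) ∧
      (∃ B : LaurentSeries ℤ, redQ q B ≠ 0 ∧
        - sX1 K₁ q + (q : LaurentSeries K₁) *
            ((G.coeff 0 : ModelField K₁ (M' * q)) : LaurentSeries K₁) =
          (q : LaurentSeries K₁) * coeffMap (Int.castRingHom K₁) B) ∧
      ∀ (X Y : ModelField K₁ (M' * q)) (Z : ModelField K₁ (M' * q * q)),
        (X : LaurentSeries K₁) = sX1 K₁ q → (Y : LaurentSeries K₁) = sY1 K₁ q →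
        (Z : LaurentSeries K₁) = sZ K₁ q →
        Z ^ (q - 1) * (Z + heckeAlphaBar K₁ (M' * q) q Y) - heckeAlphaBar K₁ (M' * q) q X +
          (q : ModelField K₁ (M' * q * q)) *
            (G.map (heckeAlphaBar K₁ (M' * q) q).toRingHom).eval Z = 0

/-- **Sub-row RED at level 9** (twin of `Fermat.Agent.H86.SS2.ModelRedStatement`): the
reductions of `Y1 = H - H1^q`, `Z = H2 - H` are nonzero, and `X1 = q δ`, `X2 = q δ(t^q)` with
`δ̄ ≠ 0`. -/
def ModelRedStatement (q : ℕ) [NeZero q] [Fact q.Prime] : Prop :=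
  q ≠ 3 →
    redQ q (sY1 ℤ q) ≠ 0 ∧ redQ q (sZ ℤ q) ≠ 0 ∧
    ∃ δ : LaurentSeries ℤ, sX1 ℤ q = (q : LaurentSeries ℤ) * δ ∧
      sX2 ℤ q = (q : LaurentSeries ℤ) * qExpand ℤ q δ ∧ redQ q δ ≠ 0

/-- **Sub-row NORMZ at level 9** (twin of `Fermat.Agent.H86.SS2.ModelNormZStatement`). -/
def ModelNormZStatement (q : ℕ) [NeZero q] [Fact q.Prime] : Prop :=
  q ≠ 3 →
  ∀ Pst : Polynomial (LaurentSeries ℤ),
    (X - C (h9S ℤ)) * Pst = (heckeU q (h9S ℤ)).map (qExpand ℤ q) →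
    ∃ B : LaurentSeries ℤ, Pst.eval (h9S ℤ) = (q : LaurentSeries ℤ) * B ∧ redQ q B ≠ 0

/-! ### The output of the row -/

/-- **SS2-C1 (EMB3) at level 9, the statement of the row** (twin of
`Fermat.Agent.H86.SS2.Emb3Statement`; the value table `Emb3Data` is the one of helper86). -/
def Emb3Statement (M' q : ℕ) [NeZero M'] [NeZero q] : Prop :=
  q.Prime → q ≠ 3 → 9 ∣ M' → ¬ q ∣ M' →
  ∀ (K₁ : Type) [Field K₁] [Algebra ℚ K₁] [FiniteDimensional ℚ K₁]
    (A₀ : Type) [CommRing A₀] [IsDomain A₀] [IsDiscreteValuationRing A₀]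
    [Algebra A₀ K₁] [IsFractionRing A₀ K₁],
    Irreducible ((q : ℕ) : A₀) →
    ∀ (Wq : ModelField K₁ (M' * q) ≃ₐ[K₁] ModelField K₁ (M' * q)),
      IsAtkinLehnerModel K₁ M' q Wq →
      ∃ (W : ModelField K₁ (M' * q * q) ≃ₐ[K₁] ModelField K₁ (M' * q * q))
        (V11 : ValuationSubring (ModelField K₁ (M' * q * q))),
        ∀ (X Y Z : ModelField K₁ (M' * q * q)),
          (X : LaurentSeries K₁) = sX1 K₁ q → (Y : LaurentSeries K₁) = sY1 K₁ q →
          (Z : LaurentSeries K₁) = sZ K₁ q →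
          Emb3Data K₁ A₀ M' q Wq W V11 X Y Z

end Fermat.Agent.H41.SS2N
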