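import Fermat.Agent.H41.SS2N.ModelRed9
import Fermat.Agent.H73.SS2.Kron2Main
import Fermat.Agent.H31.SS.Haupt9Field
import Fermat.Agent.H31.SS.Haupt9Member

/-!
# P-SS2, row SS2-C1-KRON2 at level 9 (helper41)

Level-9 twin (Hauptmodul `h9S`, primes `q ≠ 3`, `9 ∣ M'`) of helper73's
`Fermat.Agent.H73.Kron2.modelKron2`.  All the Hauptmodul-free machinery (graph ring, Kronecker
twice transported, descent of integer series) is RE-USED from `Fermat.Agent.H73.Kron2`.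

* `modelKron2N : ModelNormZStatement q → ModelKron2Statement M' q` (level-9 statements of
  `Fermat.Agent.H41.SS2N.Emb3Defs9`);
* `modelKron2N' : ModelKron2Statement M' q` (unconditional, NORMZ at level 9 plugged in).
-/

set_option autoImplicit false
set_option linter.style.haveILetI false
set_option linter.unusedSectionVars false

noncomputable section

namespace Fermat.Agent.H41.SS2N

open Polynomial ModularCurve AlgebraicCurve
open Fermat.Agent.H22.KL Fermat.Agent.H8.SS Fermat.Agent.H82.SS Fermat.Agent.H31.SS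
open Fermat.Agent.H73.Kron2

/-! ### Auxiliary facts in `ℤ((t))` -/

section Aux

variable (q : ℕ) [hq : Fact q.Prime]

theorem sH2_ne_sH9 : qExpand ℤ q (qExpand ℤ q (h9S ℤ)) ≠ h9S ℤ := by
  haveI : NeZero q := ⟨hq.out.ne_zero⟩
  intro h
  have h1 := congrArg (fun x : LaurentSeries ℤ => x.coeff (-1)) h
  simp only [h9S_coeff_neg_one] at h1
  rw [qExpand_coeff_of_not_dvd] at h1
  · exact zero_ne_one h1
  · intro hdvd
    have h2 : (q : ℤ) ∣ 1 := (dvd_neg.1 hdvd)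
    have h3 : (q : ℤ) = 1 := by
      have := Int.eq_one_of_dvd_one (by positivity) h2
      exact this
    have : q = 1 := by exact_mod_cast h3
    exact hq.out.one_lt.ne' this

end Aux

/-! ### The Kronecker data over the graph ring -/

section Main

variable (M' q : ℕ) [NeZero M'] [NeZero q] [hq : Fact q.Prime]

/-- The two base points `h`, `h₁` of the graph ring. -/
theorem exists_graph_h9 (h9 : 9 ∣ M')
    (K₁ : Type) [Field K₁] [Algebra ℚ K₁]
    (Wq : ModelField K₁ (M' * q) ≃ₐ[K₁] ModelField K₁ (M' * q))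
    (hW : IsAtkinLehnerModel K₁ M' q Wq) :
    ∃ h h₁ : ↥(graphRing K₁ M' q Wq), pi1 K₁ M' q Wq h = h9S ℤ ∧
      pi1 K₁ M' q Wq h₁ = qExpand ℤ q (h9S ℤ) := by
  have hH : h9S K₁ ∈ laurentBaseChange K₁ (modularFunctionFieldFull M') :=
    h9S_mem_laurentBaseChange K₁ M' h9
  exact ⟨⟨(h9S ℤ, heckeAlphaBar K₁ M' q ⟨h9S K₁, hH⟩),
      mem_graph_alpha hW (h9S ℤ) ⟨h9S K₁, hH⟩ (coeffMap_h9S _).symm⟩,
    ⟨(qExpand ℤ q (h9S ℤ), heckeBetaBar K₁ M' q ⟨h9S K₁, hH⟩),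
      mem_graph_beta hW (h9S ℤ) ⟨h9S K₁, hH⟩ (coeffMap_h9S _).symm⟩, rfl, rfl⟩

/-- The Kronecker data over the graph ring. -/
theorem exists_graph_kron9 (h9 : 9 ∣ M') (hqM : ¬ q ∣ M')
    (K₁ : Type) [Field K₁] [Algebra ℚ K₁]
    (Wq : ModelField K₁ (M' * q) ≃ₐ[K₁] ModelField K₁ (M' * q))
    (hW : IsAtkinLehnerModel K₁ M' q Wq) :
    ∃ (Pstar G : Polynomial ↥(graphRing K₁ M' q Wq)),
      (X - C (h9S ℤ)) * Pstar.map (pi1 K₁ M' q Wq) =
        (heckeU q (h9S ℤ)).map (qExpand ℤ q) ∧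
      (Pstar.map (pi1 K₁ M' q Wq)).comp (X + C (h9S ℤ)) =
        X ^ (q - 1) * (X + C (sY1 ℤ q)) - C (sX1 ℤ q) +
          C (q : LaurentSeries ℤ) * G.map (pi1 K₁ M' q Wq) ∧
      (Pstar.map (pi1 K₁ M' q Wq)).Monic ∧ (Pstar.map (pi1 K₁ M' q Wq)).natDegree = q := by
  have hqp : q.Prime := hq.out
  -- Kronecker for `H` over `ℤ((t))`
  obtain ⟨Ψ, δ, hΨdeg, hΨmem, hΨ, -, -, -, -⟩ := exists_kroneckerU_of_mem q M' hqM (h9S ℤ)
    (by rw [coeffMap_h9S]; exact h9S_mem_bar M' h9)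
  have hψ : ∀ i, coeffMap (Int.castRingHom K₁) (Ψ.coeff i) ∈
      laurentBaseChange K₁ (modularFunctionFieldFull M') :=
    fun i => int_mem_model_of_mem_bar K₁ _ _ (hΨmem i)
  obtain ⟨Ψ', hΨ'deg, hΨ'map⟩ := exists_graph_psi M' q K₁ Wq hW Ψ hΨdeg hψ
  obtain ⟨h, h₁, hπh, hπh₁⟩ := exists_graph_h9 M' q h9 K₁ Wq hW
  have hU : (heckeU q (h9S ℤ)).map (qExpand ℤ q) =
      (X - C (pi1 K₁ M' q Wq h₁ ^ q)) * (X ^ q - C (pi1 K₁ M' q Wq h₁)) +
        C (q : LaurentSeries ℤ) * Ψ'.map (pi1 K₁ M' q Wq) := by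
    rw [hΨ, hΨ'map, hπh₁, kronU]
    simp only [Polynomial.map_add, Polynomial.map_sub, Polynomial.map_mul, Polynomial.map_pow,
      Polynomial.map_X, Polynomial.map_C, map_pow, zsmul_eq_mul,
      Int.cast_natCast, Polynomial.C_eq_natCast, Polynomial.map_natCast]
  have hroot : ((X - C (pi1 K₁ M' q Wq h₁ ^ q)) * (X ^ q - C (pi1 K₁ M' q Wq h₁)) +
      C (q : LaurentSeries ℤ) * Ψ'.map (pi1 K₁ M' q Wq)).eval (pi1 K₁ M' q Wq h) = 0 := by
    rw [← hU, hπh]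
    exact heckeU_map_eval_self q (h9S ℤ)
  obtain ⟨Pstar, G, hfac, hcomp, hmon, hdeg⟩ :=
    kron_transport (pi1 K₁ M' q Wq) pi1_injective q hqp h h₁ Ψ' hΨ'deg hroot
  refine ⟨Pstar, G, ?_, ?_, hmon, hdeg⟩
  · rw [hU, ← hfac, hπh]
  · rw [hπh, hπh₁] at hcomp
    rw [hcomp]
    rfl

end Main

/-! ### Base change of the series -/

section Series

variable {A B : Type} [CommRing A] [CommRing B] (φ : A →+* B) (q : ℕ) [NeZero q]

theorem coeffMap_sX1N : coeffMap φ (sX1 A q) = sX1 B q := by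
  unfold sX1 sH1 sH
  rw [map_sub, map_pow, ModularCurve.coeffMap_qExpand, coeffMap_h9S]

theorem coeffMap_sY1N : coeffMap φ (sY1 A q) = sY1 B q := by
  unfold sY1 sH1 sH
  rw [map_sub, map_pow, ModularCurve.coeffMap_qExpand, coeffMap_h9S]

theorem coeffMap_sZN : coeffMap φ (sZ A q) = sZ B q := by
  unfold sZ sH2 sH
  rw [map_sub, ModularCurve.coeffMap_qExpand, ModularCurve.coeffMap_qExpand, coeffMap_h9S]

theorem coeffMap_sX2N : coeffMap φ (sX2 A q) = sX2 B q := by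
  unfold sX2 sH2 sH1
  rw [map_sub, map_pow, ModularCurve.coeffMap_qExpand, ModularCurve.coeffMap_qExpand,
    coeffMap_h9S]

end Series

/-! ### The row -/

section Row

variable (M' q : ℕ) [NeZero M'] [NeZero q] [hq : Fact q.Prime]

/-- The relation in `ℤ((t))`. -/
theorem rel_int9 (Pst G₁ : Polynomial (LaurentSeries ℤ))
    (hfac : (X - C (h9S ℤ)) * Pst = (heckeU q (h9S ℤ)).map (qExpand ℤ q))
    (hcomp : Pst.comp (X + C (h9S ℤ)) =
        X ^ (q - 1) * (X + C (sY1 ℤ q)) - C (sX1 ℤ q) + C (q : LaurentSeries ℤ) * G₁) :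
    sZ ℤ q ^ (q - 1) * (sZ ℤ q + sY1 ℤ q) - sX1 ℤ q +
      (q : LaurentSeries ℤ) * G₁.eval (sZ ℤ q) = 0 := by
  have h2 : Pst.eval (sH2 ℤ q) = 0 := by
    have h := congrArg (Polynomial.eval (sH2 ℤ q)) hfac
    rw [Polynomial.eval_mul, Polynomial.eval_sub, Polynomial.eval_X, Polynomial.eval_C] at h
    have h' : ((heckeU q (h9S ℤ)).map (qExpand ℤ q)).eval (sH2 ℤ q) = 0 :=
      heckeU_map_eval_two q (h9S ℤ)
    rw [h'] at h
    rcases mul_eq_zero.1 h with h0 | h0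
    · exact absurd (sub_eq_zero.1 h0) (sH2_ne_sH9 q)
    · exact h0
  have h3 := congrArg (Polynomial.eval (sZ ℤ q)) hcomp
  rw [Polynomial.eval_comp, Polynomial.eval_add, Polynomial.eval_X, Polynomial.eval_C] at h3
  have h4 : sZ ℤ q + h9S ℤ = sH2 ℤ q := by
    unfold sZ sH
    ring
  rw [h4, h2] at h3
  rw [h3]
  simp only [Polynomial.eval_add, Polynomial.eval_sub, Polynomial.eval_mul, Polynomial.eval_pow,
    Polynomial.eval_X, Polynomial.eval_C]

/-- the degree of `G` over the graph ring -/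
theorem graph_G_natDegree_lt9
    (K₁ : Type) [Field K₁] [Algebra ℚ K₁]
    (Wq : ModelField K₁ (M' * q) ≃ₐ[K₁] ModelField K₁ (M' * q))
    (Pstar G : Polynomial ↥(graphRing K₁ M' q Wq))
    (hcomp : (Pstar.map (pi1 K₁ M' q Wq)).comp (X + C (h9S ℤ)) =
        X ^ (q - 1) * (X + C (sY1 ℤ q)) - C (sX1 ℤ q) +
          C (q : LaurentSeries ℤ) * G.map (pi1 K₁ M' q Wq))
    (hmon : (Pstar.map (pi1 K₁ M' q Wq)).Monic)
    (hdeg : (Pstar.map (pi1 K₁ M' q Wq)).natDegree = q) :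
    (G.map (pi2 K₁ M' q Wq)).natDegree < q := by
  have hqp : q.Prime := hq.out
  have h1 : (G.map (pi1 K₁ M' q Wq)).natDegree < q := by
    refine natDegree_G_lt q hqp.two_le (natCast_ne_zero_laurent q)
      ((Pstar.map (pi1 K₁ M' q Wq)).comp (X + C (h9S ℤ))) _ (sX1 ℤ q) (sY1 ℤ q) ?_ ?_ hcomp
    · refine hmon.comp (monic_X_add_C _) ?_
      rw [natDegree_X_add_C]
      exact one_ne_zero
    · rw [Polynomial.natDegree_comp, hdeg, natDegree_X_add_C, mul_one]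
  rw [Polynomial.natDegree_map_eq_of_injective pi1_injective] at h1
  exact lt_of_le_of_lt (Polynomial.natDegree_map_le) h1

/-- the constant term -/
theorem graph_const9 (hNZ : ModelNormZStatement q) (hq3 : q ≠ 3)
    (K₁ : Type) [Field K₁] [Algebra ℚ K₁]
    (Wq : ModelField K₁ (M' * q) ≃ₐ[K₁] ModelField K₁ (M' * q))
    (Pstar G : Polynomial ↥(graphRing K₁ M' q Wq))
    (hfac : (X - C (h9S ℤ)) * Pstar.map (pi1 K₁ M' q Wq) =
        (heckeU q (h9S ℤ)).map (qExpand ℤ q))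
    (hcomp : (Pstar.map (pi1 K₁ M' q Wq)).comp (X + C (h9S ℤ)) =
        X ^ (q - 1) * (X + C (sY1 ℤ q)) - C (sX1 ℤ q) +
          C (q : LaurentSeries ℤ) * G.map (pi1 K₁ M' q Wq)) :
    ∃ B : LaurentSeries ℤ, redQ q B ≠ 0 ∧
        - sX1 K₁ q + (q : LaurentSeries K₁) *
            (((G.map (pi2 K₁ M' q Wq)).coeff 0 : ModelField K₁ (M' * q)) : LaurentSeries K₁) =
          (q : LaurentSeries K₁) * coeffMap (Int.castRingHom K₁) B := by
  have hqp : q.Prime := hq.out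
  obtain ⟨B, hB, hBred⟩ := hNZ hq3 _ hfac
  have heval := Fermat.Agent.H62.SS2.kronecker_twice_eval q hqp (h9S ℤ) (qExpand ℤ q (h9S ℤ))
    (Pstar.map (pi1 K₁ M' q Wq)) (G.map (pi1 K₁ M' q Wq)) hcomp
  refine ⟨B, hBred, ?_⟩
  rw [Polynomial.coeff_map, coe_pi2, ← Polynomial.coeff_map,
    Polynomial.coeff_zero_eq_eval_zero, ← coeffMap_sX1N (Int.castRingHom K₁) q]
  have h1 : -(sX1 ℤ q) + (q : LaurentSeries ℤ) * (G.map (pi1 K₁ M' q Wq)).eval 0 =
      (q : LaurentSeries ℤ) * B := by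
    rw [← hB, heval]
    rfl
  have h2 := congrArg (coeffMap (Int.castRingHom K₁)) h1
  rw [map_add, map_neg, map_mul, map_mul, map_natCast] at h2
  exact h2

/-- the relation in `E₂` -/
theorem graph_rel9
    (K₁ : Type) [Field K₁] [Algebra ℚ K₁]
    (Wq : ModelField K₁ (M' * q) ≃ₐ[K₁] ModelField K₁ (M' * q))
    (Pstar G : Polynomial ↥(graphRing K₁ M' q Wq))
    (hfac : (X - C (h9S ℤ)) * Pstar.map (pi1 K₁ M' q Wq) =
        (heckeU q (h9S ℤ)).map (qExpand ℤ q))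
    (hcomp : (Pstar.map (pi1 K₁ M' q Wq)).comp (X + C (h9S ℤ)) =
        X ^ (q - 1) * (X + C (sY1 ℤ q)) - C (sX1 ℤ q) +
          C (q : LaurentSeries ℤ) * G.map (pi1 K₁ M' q Wq))
    (X Y : ModelField K₁ (M' * q)) (Z : ModelField K₁ (M' * q * q))
    (hX : (X : LaurentSeries K₁) = sX1 K₁ q) (hY : (Y : LaurentSeries K₁) = sY1 K₁ q)
    (hZ : (Z : LaurentSeries K₁) = sZ K₁ q) :
    Z ^ (q - 1) * (Z + heckeAlphaBar K₁ (M' * q) q Y) - heckeAlphaBar K₁ (M' * q) q X +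
      (q : ModelField K₁ (M' * q * q)) *
        ((G.map (pi2 K₁ M' q Wq)).map (heckeAlphaBar K₁ (M' * q) q).toRingHom).eval Z = 0 := by
  rw [Polynomial.map_map]
  refine rel_transport_if (laurentBaseChange K₁ (modularFunctionFieldFull (M' * q * q)))
    (coeffMap (Int.castRingHom K₁)) (pi1 K₁ M' q Wq)
    ((heckeAlphaBar K₁ (M' * q) q).toRingHom.comp (pi2 K₁ M' q Wq)) ?_ q G Z
    (heckeAlphaBar K₁ (M' * q) q Y) (heckeAlphaBar K₁ (M' * q) q X)
    (sZ ℤ q) (sY1 ℤ q) (sX1 ℤ q) ?_ ?_ ?_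
    (rel_int9 q (Pstar.map (pi1 K₁ M' q Wq)) (G.map (pi1 K₁ M' q Wq)) hfac hcomp)
  · intro r
    exact graph_square M' q K₁ Wq r
  · rw [hZ, coeffMap_sZN]
  · rw [coe_heckeAlphaBar, hY, coeffMap_sY1N]
  · rw [coe_heckeAlphaBar, hX, coeffMap_sX1N]

/-- **Row SS2-C1-KRON2 at level 9.** -/
theorem modelKron2N : ModelNormZStatement q → ModelKron2Statement M' q := by
  intro hNZ hq3 h9 hqM K₁ _ _ _ Wq hW
  obtain ⟨Pstar, G, hfac, hcomp, hmon, hdeg⟩ := exists_graph_kron9 M' q h9 hqM K₁ Wq hW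
  refine ⟨G.map (pi2 K₁ M' q Wq), graph_G_natDegree_lt9 M' q K₁ Wq Pstar G hcomp hmon hdeg,
    ?_, ?_, graph_const9 M' q hNZ hq3 K₁ Wq Pstar G hfac hcomp, ?_⟩
  · intro i
    rw [Polynomial.coeff_map]
    exact ⟨_, coe_pi2 _⟩
  · intro i
    rw [Polynomial.coeff_map]
    exact wq_pi2 _
  · intro X Y Z hX hY hZ
    exact graph_rel9 M' q K₁ Wq Pstar G hfac hcomp X Y Z hX hY hZ

/-- **Row SS2-C1-KRON2 at level 9, unconditional.** -/
theorem modelKron2N' : ModelKron2Statement M' q :=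
  modelKron2N M' q (modelNormZ9 q)

end Row

end Fermat.Agent.H41.SS2N

end
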