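import Mathlib
import Fermat.Agent.H86.SS2.Emb3Inputs
import Fermat.Agent.H41.SS2N.Kron2N
import Fermat.Agent.H79.SS2.AL2

/-!
# P-SS2 (S36), `q = 2` twin : the CONCRETE INPUT PACKAGE at level 9 (helper41)

Level-9 twin (Hauptmodul `h9S`, primes `q ≠ 3`, `9 ∣ M'`) of helper86's
`Fermat.Agent.H86.SS2.modelVal3Inputs`.  The structure `ModelVal3Inputs` is Hauptmodul-free and
RE-USED from `Fermat.Agent.H86.SS2`.

* `atkinLehnerModel_invol9` : `W_q` is an involution of the model field of level `M' q`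
  (`9 ∣ M'`);
* `modelVal3Inputs9_of` : the package from the level-9 sub-rows KRON2, RED and AL2;
* `modelVal3Inputs9` : unconditional (`modelKron2N'`, `modelRed9`, helper79's `al2Exists`).
-/

set_option autoImplicit false
set_option linter.unusedSectionVars false
set_option linter.style.haveILetI false
set_option synthInstance.maxHeartbeats 400000
set_option maxHeartbeats 1600000

noncomputable section

namespace Fermat.Agent.H41.SS2N

open Polynomial ModularCurve AlgebraicCurve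
open Fermat.Agent.H22.KL Fermat.Agent.H8.SS Fermat.Agent.H7.SS Fermat.Agent.H82.SS
open Fermat.Agent.H7.SS2 Fermat.Agent.H11.SS2 Fermat.Agent.H31.SS
open Fermat.Agent.H86.SS2 hiding sH sH1 sH2 sX1 sY1 sZ sX2 sX2_eq ModelKron2Statement
  ModelRedStatement ModelNormZStatement Emb3Statement coeffMap_sH coeffMap_sH1 coeffMap_sH2
  coeffMap_sX1 coeffMap_sY1 coeffMap_sZ coeffMap_sX2 qExpand_sX1 atkinLehnerModel_invol
  modelVal3Inputs

/-! ### Base change of the series -/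

section Series

variable (A : Type) [CommRing A] (q : ℕ) [NeZero q]

theorem qExpand_sX1N : qExpand A q (sX1 A q) = sX2 A q := by
  unfold sX1 sX2 sH1 sH2 sH
  rw [map_sub, map_pow]

end Series

/-! ### `W_q` is an involution -/

section Invol

variable (K₁ : Type) [Field K₁] [Algebra ℚ K₁] [FiniteDimensional ℚ K₁]
  (M' q : ℕ) [NeZero M'] [NeZero q]

theorem atkinLehnerModel_invol9 (hq : q.Prime) (hqM : ¬ q ∣ M') (h9 : 9 ∣ M')
    (Wq : ModelField K₁ (M' * q) ≃ₐ[K₁] ModelField K₁ (M' * q))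
    (hWq : IsAtkinLehnerModel K₁ M' q Wq) (z : ModelField K₁ (M' * q)) : Wq (Wq z) = z := by
  let H : ModelField K₁ M' := ⟨h9S K₁, h9S_mem_laurentBaseChange K₁ M' h9⟩
  have hH : (H : LaurentSeries K₁) = coeffEmb K₁ (h9S ℚ) := by
    show h9S K₁ = coeffEmb K₁ (h9S ℚ)
    rw [coeffEmb, coeffMap_h9S]
  obtain ⟨p, hp⟩ := Fermat.Agent.H32.SSGen.modelGen_h9S M' q hq hqM K₁ H hH z
  have key : ∀ p : (ModelField K₁ M')[X],
      Wq (Wq (p.eval₂ (heckeAlphaBar K₁ M' q : ModelField K₁ M' →+* ModelField K₁ (M' * q))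
        (heckeBetaBar K₁ M' q H))) =
      p.eval₂ (heckeAlphaBar K₁ M' q : ModelField K₁ M' →+* ModelField K₁ (M' * q))
        (heckeBetaBar K₁ M' q H) := by
    intro p
    induction p using Polynomial.induction_on' with
    | add p₁ p₂ h₁ h₂ => rw [eval₂_add, map_add, map_add, h₁, h₂]
    | monomial n a =>
      rw [eval₂_monomial, map_mul, map_mul, map_pow, map_pow]
      have e1 : Wq (Wq ((heckeAlphaBar K₁ M' q : ModelField K₁ M' →+* ModelField K₁ (M' * q)) a))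
          = (heckeAlphaBar K₁ M' q : ModelField K₁ M' →+* ModelField K₁ (M' * q)) a := by
        show Wq (Wq (heckeAlphaBar K₁ M' q a)) = heckeAlphaBar K₁ M' q a
        rw [hWq.1, hWq.2]
      rw [e1, hWq.2, hWq.1]
  rw [hp]
  exact key p

end Invol

/-! ### The package -/

section Package

variable {K₁ : Type} [Field K₁] [Algebra ℚ K₁] {A₀ : Type} [CommRing A₀] [IsDomain A₀]
  [IsDiscreteValuationRing A₀] [Algebra A₀ K₁] [IsFractionRing A₀ K₁]
  {M' q : ℕ} [NeZero M'] [NeZero q]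

/-- **The concrete input package.** -/
theorem modelVal3Inputs9_of [Fact q.Prime] [FiniteDimensional ℚ K₁]
    (hK : ModelKron2Statement M' q) (hRed : ModelRedStatement q)
    (hAL : AL2ExistsStatement M' q)
    (hq3 : q ≠ 3) (h9 : 9 ∣ M') (hqM : ¬ q ∣ M') (hqi : Irreducible ((q : ℕ) : A₀))
    (Wq : ModelField K₁ (M' * q) ≃ₐ[K₁] ModelField K₁ (M' * q))
    (hWq : IsAtkinLehnerModel K₁ M' q Wq) :
    ∃ (X₁ Y₁ : ModelField K₁ (M' * q)) (Z : ModelField K₁ (M' * q * q))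
      (Pα Pβ : Polynomial (ModelField K₁ (M' * q))),
      (X₁ : LaurentSeries K₁) = sX1 K₁ q ∧ (Y₁ : LaurentSeries K₁) = sY1 K₁ q ∧
      (Z : LaurentSeries K₁) = sZ K₁ q ∧
      ModelVal3Inputs K₁ A₀ M' q Wq X₁ Y₁ Z Pα Pβ := by
  have hq : q.Prime := Fact.out
  have hq2' : 2 ≤ q := hq.two_le
  have hcop : Nat.Coprime M' q := ((Nat.Prime.coprime_iff_not_dvd hq).2 hqM).symm
  obtain ⟨W, hW⟩ := hAL hcop K₁ Wq hWq
  obtain ⟨G, hGdeg, hGint, hGWint, ⟨B, hBred, hB⟩, hGrel⟩ := hK hq3 h9 hqM K₁ Wq hWq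
  obtain ⟨hYred, hZred, δ, hδ1, hδ2, hδred⟩ := hRed hq3
  have hinv := atkinLehnerModel_invol9 K₁ M' q hq hqM h9 Wq hWq
  have hqm : ((q : ℕ) : A₀) ∈ IsLocalRing.maximalIdeal A₀ := by
    rw [IsLocalRing.mem_maximalIdeal]
    exact hqi.not_isUnit
  -- the elements
  let H₀ : ModelField K₁ M' := ⟨h9S K₁, h9S_mem_laurentBaseChange K₁ M' h9⟩
  let h : ModelField K₁ (M' * q) := heckeAlphaBar K₁ M' q H₀
  let h1 : ModelField K₁ (M' * q) := heckeBetaBar K₁ M' q H₀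
  let X₁ : ModelField K₁ (M' * q) := h1 - h ^ q
  let Y₁ : ModelField K₁ (M' * q) := h - h1 ^ q
  let Z : ModelField K₁ (M' * q * q) :=
    heckeBetaBar K₁ (M' * q) q h1 - heckeAlphaBar K₁ (M' * q) q h
  have hhs : (h : LaurentSeries K₁) = sH K₁ := by
    show ((heckeAlphaBar K₁ M' q H₀ : ModelField K₁ (M' * q)) : LaurentSeries K₁) = _
    rw [coe_heckeAlphaBar]
    rfl
  have hh1s : (h1 : LaurentSeries K₁) = sH1 K₁ q := by
    show ((heckeBetaBar K₁ M' q H₀ : ModelField K₁ (M' * q)) : LaurentSeries K₁) = _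
    rw [coe_heckeBetaBar]
    rfl
  have hXs : (X₁ : LaurentSeries K₁) = sX1 K₁ q := by
    show ((h1 - h ^ q : ModelField K₁ (M' * q)) : LaurentSeries K₁) = _
    push_cast
    rw [hhs, hh1s]
    rfl
  have hYs : (Y₁ : LaurentSeries K₁) = sY1 K₁ q := by
    show ((h - h1 ^ q : ModelField K₁ (M' * q)) : LaurentSeries K₁) = _
    push_cast
    rw [hhs, hh1s]
    rfl
  have hZs : (Z : LaurentSeries K₁) = sZ K₁ q := by
    show ((heckeBetaBar K₁ (M' * q) q h1 - heckeAlphaBar K₁ (M' * q) q h :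
      ModelField K₁ (M' * q * q)) : LaurentSeries K₁) = _
    push_cast
    rw [coe_heckeBetaBar, coe_heckeAlphaBar, hhs, hh1s]
    rfl
  -- the action of `Wq`
  have hWh : Wq h = h1 := hWq.1 H₀
  have hWh1 : Wq h1 = h := hWq.2 H₀
  have hWX : Wq X₁ = Y₁ := by
    show Wq (h1 - h ^ q) = h - h1 ^ q
    rw [map_sub, map_pow, hWh, hWh1]
  have hWY : Wq Y₁ = X₁ := by
    show Wq (h - h1 ^ q) = h1 - h ^ q
    rw [map_sub, map_pow, hWh, hWh1]
  have hWZ : W Z = -Z := by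
    show W (heckeBetaBar K₁ (M' * q) q h1 - heckeAlphaBar K₁ (M' * q) q h) =
      -(heckeBetaBar K₁ (M' * q) q h1 - heckeAlphaBar K₁ (M' * q) q h)
    rw [map_sub, hW.beta, hW.alpha, hWh, hWh1]
    ring
  -- valuation rings
  have hG' := hasGNF_model K₁ A₀ (M' * q)
  have hO₂mem : ∀ z, z ∈ vZero K₁ A₀ (M' * q) Wq ↔ Wq z ∈ vInf K₁ A₀ (M' * q) :=
    fun z => mem_vZero_iff Wq z
  have hO₂non : ∀ z, z ∈ (vZero K₁ A₀ (M' * q) Wq).nonunits ↔
      Wq z ∈ (vInf K₁ A₀ (M' * q)).nonunits := fun z => mem_nonunits_vZero_iff Wq z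
  have hO₂unit : ∀ z, IsVUnit (vInf K₁ A₀ (M' * q)) (Wq z) →
      IsVUnit (vZero K₁ A₀ (M' * q) Wq) z := by
    intro z hz
    refine ⟨fun h0 => hz.1 (by rw [h0, map_zero]), (hO₂mem z).2 hz.2.1, ?_⟩
    rw [hO₂mem, map_inv₀]
    exact hz.2.2
  have hqK : ((q : ℕ) : K₁) ≠ 0 := by
    haveI := algebraRat.charZero K₁
    exact Nat.cast_ne_zero.2 hq.ne_zero
  have hqL : ((q : ℕ) : LaurentSeries K₁) ≠ 0 := by
    rw [← map_natCast (algebraMap K₁ (LaurentSeries K₁))]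
    exact (_root_.map_ne_zero _).2 hqK
  have hqE : ((q : ℕ) : ModelField K₁ (M' * q)) ≠ 0 := by
    rw [← map_natCast (algebraMap K₁ (ModelField K₁ (M' * q)))]
    exact (_root_.map_ne_zero _).2 hqK
  have hqO₁ : IsUniformiser (ModelField K₁ (M' * q)) (vInf K₁ A₀ (M' * q))
      ((q : ℕ) : ModelField K₁ (M' * q)) :=
    isUniformiser_gaussVal_q _ hG' q hqi
  have hqO₁m : ((q : ℕ) : ModelField K₁ (M' * q)) ∈ (vInf K₁ A₀ (M' * q)).nonunits := hqO₁.2.1
  have hqO₂m : ((q : ℕ) : ModelField K₁ (M' * q)) ∈ (vZero K₁ A₀ (M' * q) Wq).nonunits := by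
    rw [hO₂non, map_natCast]
    exact hqO₁m
  -- the level-`L` table
  have hY₁u : IsVUnit (vInf K₁ A₀ (M' * q)) Y₁ :=
    isVUnit_gaussVal_of_int _ hG' q hqm Y₁ (sY1 ℤ q) (by rw [hYs, coeffMap_sY1N]) hYred
  have hXqs : ((X₁ / ((q : ℕ) : ModelField K₁ (M' * q)) : ModelField K₁ (M' * q)) :
      LaurentSeries K₁) = coeffMap (Int.castRingHom K₁) δ := by
    push_cast
    rw [hXs, ← coeffMap_sX1N (Int.castRingHom K₁) q, hδ1, map_mul, map_natCast,
      mul_div_cancel_left₀ _ hqL]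
  have hXqu : IsVUnit (vInf K₁ A₀ (M' * q)) (X₁ / ((q : ℕ) : ModelField K₁ (M' * q))) :=
    isVUnit_gaussVal_of_int _ hG' q hqm _ δ hXqs hδred
  have hX₁eq : X₁ = ((q : ℕ) : ModelField K₁ (M' * q)) *
      (X₁ / ((q : ℕ) : ModelField K₁ (M' * q))) := by
    field_simp
  have hX₁m : X₁ ∈ (vInf K₁ A₀ (M' * q)).nonunits := by
    rw [hX₁eq]
    exact nonunits_mul_mem hqO₁m hXqu.mem
  have hX₁0 : X₁ ≠ 0 := by
    rw [hX₁eq]
    exact mul_ne_zero hqE hXqu.1
  have hX₁O₂u : IsVUnit (vZero K₁ A₀ (M' * q) Wq) X₁ := hO₂unit X₁ (by rw [hWX]; exact hY₁u)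
  have hYqO₂u : IsVUnit (vZero K₁ A₀ (M' * q) Wq)
      (Y₁ / ((q : ℕ) : ModelField K₁ (M' * q))) :=
    hO₂unit _ (by rw [map_div₀, hWY, map_natCast]; exact hXqu)
  have hY₁m : Y₁ ∈ (vZero K₁ A₀ (M' * q) Wq).nonunits := by
    rw [hO₂non, hWY]
    exact hX₁m
  -- the polynomial `Pα`
  obtain ⟨hPmonic, hPdeg⟩ := kronPoly_monic q hq2' Y₁ X₁
    ((q : ℕ) : ModelField K₁ (M' * q)) G hGdeg
  have hPcoeff := kronPoly_coeff q Y₁ X₁ ((q : ℕ) : ModelField K₁ (M' * q)) G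
  have hGO₁ : ∀ i, G.coeff i ∈ vInf K₁ A₀ (M' * q) := fun i => by
    obtain ⟨g, hg⟩ := hGint i
    exact mem_gaussVal_of_int _ hG' _ g hg
  have hGO₂ : ∀ i, G.coeff i ∈ vZero K₁ A₀ (M' * q) Wq := fun i => by
    rw [hO₂mem]
    obtain ⟨g, hg⟩ := hGWint i
    exact mem_gaussVal_of_int _ hG' _ g hg
  have hmemV : ∀ V : ValuationSubring (ModelField K₁ (M' * q)), Y₁ ∈ V → X₁ ∈ V →
      ((q : ℕ) : ModelField K₁ (M' * q)) ∈ V → (∀ i, G.coeff i ∈ V) →
      ∀ i, (X ^ q + (C Y₁ * X ^ (q - 1) - C X₁ +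
        C ((q : ℕ) : ModelField K₁ (M' * q)) * G)).coeff i ∈ V := by
    intro V hy hx hqV hg i
    rw [hPcoeff]
    refine add_mem ?_ (add_mem (sub_mem (mul_mem hy ?_) ?_) (mul_mem hqV (hg i)))
    · split_ifs
      · exact one_mem _
      · exact zero_mem _
    · split_ifs
      · exact one_mem _
      · exact zero_mem _
    · split_ifs
      · exact hx
      · exact zero_mem _
  have hXq : (X : Polynomial (ModelField K₁ (M' * q))) ^ (q - 1) * X = X ^ q := by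
    rw [← pow_succ, Nat.sub_add_cancel hq.one_le]
  have e1 : (X ^ q + (C Y₁ * X ^ (q - 1) - C X₁ +
      C ((q : ℕ) : ModelField K₁ (M' * q)) * G)) - X ^ (q - 1) * (X + C Y₁) =
      C 0 * X ^ (q - 1) - C X₁ + C ((q : ℕ) : ModelField K₁ (M' * q)) * G := by
    rw [mul_add, hXq, C_0]
    ring
  have e2 : (X ^ q + (C Y₁ * X ^ (q - 1) - C X₁ +
      C ((q : ℕ) : ModelField K₁ (M' * q)) * G)) - (X ^ q - C X₁) =
      C Y₁ * X ^ (q - 1) - C 0 + C ((q : ℕ) : ModelField K₁ (M' * q)) * G := by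
    rw [C_0]
    ring
  have hnonV : ∀ (V : ValuationSubring (ModelField K₁ (M' * q))) (y x : ModelField K₁ (M' * q)),
      y ∈ V.nonunits → x ∈ V.nonunits →
      ((q : ℕ) : ModelField K₁ (M' * q)) ∈ V.nonunits → (∀ i, G.coeff i ∈ V) →
      ∀ i, (C y * X ^ (q - 1) - C x +
        C ((q : ℕ) : ModelField K₁ (M' * q)) * G).coeff i ∈ V.nonunits := by
    intro V y x hy hx hqV hg i
    rw [coeff_add, coeff_sub, coeff_C_mul, coeff_X_pow, coeff_C, coeff_C_mul]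
    refine nonunits_add_mem ?_ (nonunits_mul_mem hqV (hg i))
    rw [sub_eq_add_neg]
    refine nonunits_add_mem ?_ (nonunits_neg_mem ?_)
    · split_ifs
      · rw [mul_one]
        exact hy
      · rw [mul_zero]
        exact V.nonunits.zero_mem
    · split_ifs
      · exact hx
      · exact V.nonunits.zero_mem
  have hP0 : (X ^ q + (C Y₁ * X ^ (q - 1) - C X₁ +
      C ((q : ℕ) : ModelField K₁ (M' * q)) * G)).coeff 0 =
      -X₁ + ((q : ℕ) : ModelField K₁ (M' * q)) * G.coeff 0 := by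
    rw [hPcoeff, if_neg (by omega), if_neg (by omega), if_pos rfl]
    ring
  have hP0s : (((X ^ q + (C Y₁ * X ^ (q - 1) - C X₁ +
      C ((q : ℕ) : ModelField K₁ (M' * q)) * G)).coeff 0 /
        ((q : ℕ) : ModelField K₁ (M' * q)) : ModelField K₁ (M' * q)) : LaurentSeries K₁) =
      coeffMap (Int.castRingHom K₁) B := by
    rw [hP0]
    push_cast
    rw [hXs, hB, mul_div_cancel_left₀ _ hqL]
  have hP0u : IsVUnit (vInf K₁ A₀ (M' * q)) ((X ^ q + (C Y₁ * X ^ (q - 1) - C X₁ +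
      C ((q : ℕ) : ModelField K₁ (M' * q)) * G)).coeff 0 /
        ((q : ℕ) : ModelField K₁ (M' * q))) :=
    isVUnit_gaussVal_of_int _ hG' q hqm _ B hP0s hBred
  -- the polynomial `Pβ`
  have hcα : ∀ i, (X ^ q + (C Y₁ * X ^ (q - 1) - C X₁ +
      C ((q : ℕ) : ModelField K₁ (M' * q)) * G)).coeff i ∈ vInf K₁ A₀ (M' * q) ∧
      (X ^ q + (C Y₁ * X ^ (q - 1) - C X₁ +
      C ((q : ℕ) : ModelField K₁ (M' * q)) * G)).coeff i ∈ vZero K₁ A₀ (M' * q) Wq :=
    fun i => ⟨hmemV (vInf K₁ A₀ (M' * q)) hY₁u.mem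
          ((vInf K₁ A₀ (M' * q)).nonunits_le hX₁m)
          ((vInf K₁ A₀ (M' * q)).nonunits_le hqO₁m) hGO₁ i,
        hmemV (vZero K₁ A₀ (M' * q) Wq) ((vZero K₁ A₀ (M' * q) Wq).nonunits_le hY₁m)
          hX₁O₂u.mem ((vZero K₁ A₀ (M' * q) Wq).nonunits_le hqO₂m) hGO₂ i⟩
  have hr1 : ∀ i, ((X ^ q + (C Y₁ * X ^ (q - 1) - C X₁ +
      C ((q : ℕ) : ModelField K₁ (M' * q)) * G)) - X ^ (q - 1) * (X + C Y₁)).coeff i ∈
      (vInf K₁ A₀ (M' * q)).nonunits := by
    intro i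
    rw [e1]
    exact hnonV _ 0 X₁ (ValuationSubring.nonunits _).zero_mem hX₁m hqO₁m hGO₁ i
  have hr2 : ∀ i, ((X ^ q + (C Y₁ * X ^ (q - 1) - C X₁ +
      C ((q : ℕ) : ModelField K₁ (M' * q)) * G)) - (X ^ q - C X₁)).coeff i ∈
      (vZero K₁ A₀ (M' * q) Wq).nonunits := by
    intro i
    rw [e2]
    exact hnonV _ Y₁ 0 hY₁m (ValuationSubring.nonunits _).zero_mem hqO₂m hGO₂ i
  have hrootα0 : ((X ^ q + (C Y₁ * X ^ (q - 1) - C X₁ +
      C ((q : ℕ) : ModelField K₁ (M' * q)) * G)).map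
        (heckeAlphaBar K₁ (M' * q) q).toRingHom).eval Z = 0 := by
    have h0 := hGrel X₁ Y₁ Z hXs hYs hZs
    simp only [Polynomial.map_add, Polynomial.map_sub, Polynomial.map_mul, Polynomial.map_pow,
      Polynomial.map_X, Polynomial.map_C, eval_add, eval_sub, eval_mul, eval_pow, eval_X, eval_C,
      map_natCast, Polynomial.map_natCast, Polynomial.eval_natCast]
    have hZq : Z ^ (q - 1) * Z = Z ^ q := by
      rw [← pow_succ, Nat.sub_add_cancel hq.one_le]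
    have hα : ∀ y, (heckeAlphaBar K₁ (M' * q) q).toRingHom y = heckeAlphaBar K₁ (M' * q) q y :=
      fun y => rfl
    rw [hα, hα]
    linear_combination h0 - hZq
  -- make `Pα` opaque
  obtain ⟨Pα, hPα⟩ : ∃ P : Polynomial (ModelField K₁ (M' * q)), P = X ^ q +
      (C Y₁ * X ^ (q - 1) - C X₁ + C ((q : ℕ) : ModelField K₁ (M' * q)) * G) := ⟨_, rfl⟩
  rw [← hPα] at hPmonic hPdeg hcα hr1 hr2 hrootα0 hP0u
  obtain ⟨ω, hωapp⟩ : ∃ ω : ModelField K₁ (M' * q) →+* ModelField K₁ (M' * q),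
      ∀ z, ω z = Wq z := ⟨(Wq : ModelField K₁ (M' * q) →+* ModelField K₁ (M' * q)), fun z => rfl⟩
  have hωinj : Function.Injective ω := fun a b hab => Wq.injective (by rw [← hωapp, ← hωapp, hab])
  have e1β : Pα.map ω - X ^ (q - 1) * (X + C X₁) = (Pα - X ^ (q - 1) * (X + C Y₁)).map ω := by
    rw [Polynomial.map_sub, Polynomial.map_mul, Polynomial.map_pow, Polynomial.map_add,
      Polynomial.map_X, Polynomial.map_C, hωapp, hWY]
  have e2β : Pα.map ω - (X ^ q - C Y₁) = (Pα - (X ^ q - C X₁)).map ω := by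
    rw [Polynomial.map_sub, Polynomial.map_sub, Polynomial.map_pow,
      Polynomial.map_X, Polynomial.map_C, hωapp, hWX]
  have hrootα : (Pα.map (heckeAlphaBar K₁ (M' * q) q).toRingHom).eval Z = 0 := hrootα0
  have hrootβ : ((Pα.map ω).map (heckeBetaBar K₁ (M' * q) q).toRingHom).eval (-Z) = 0 := by
    have hcomp : ((heckeBetaBar K₁ (M' * q) q).toRingHom).comp ω =
        ((W : ModelField K₁ (M' * q * q) →+* ModelField K₁ (M' * q * q))).comp
          (heckeAlphaBar K₁ (M' * q) q).toRingHom := by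
      refine RingHom.ext fun y => ?_
      show heckeBetaBar K₁ (M' * q) q (ω y) = W (heckeAlphaBar K₁ (M' * q) q y)
      rw [hW.alpha, hωapp]
    rw [Polynomial.map_map, hcomp, ← Polynomial.map_map, ← hWZ, Polynomial.eval_map]
    have h2 : (Pα.map (heckeAlphaBar K₁ (M' * q) q).toRingHom).eval₂
        (W : ModelField K₁ (M' * q * q) →+* ModelField K₁ (M' * q * q)) (W Z) =
        W ((Pα.map (heckeAlphaBar K₁ (M' * q) q).toRingHom).eval Z) :=
      Polynomial.eval₂_at_apply _ _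
    rw [h2, hrootα, map_zero]
  refine ⟨X₁, Y₁, Z, Pα, Pα.map ω, hXs, hYs, hZs, ?_⟩
  refine
    { ne_O := ?_
      x1_O1 := hXqu.toVUnit
      x1_O2 := hX₁O₂u.toVUnit
      y1_O1 := hY₁u.toVUnit
      y1_O2 := hYqO₂u.toVUnit
      x1_ne := hX₁0
      y1_ne := hY₁u.1
      rel := ?_
      monicα := hPmonic
      degα := hPdeg
      monicβ := hPmonic.map ω
      degβ := by rw [Polynomial.natDegree_map_eq_of_injective hωinj, hPdeg]
      coeffα := hcα
      coeffβ := ?_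
      rootα := hrootα
      rootβ := hrootβ
      redα1 := ?_
      unitα := hP0u.toVUnit
      redα2 := ?_
      redβ1 := ?_
      unitβ := ?_
      redβ2 := ?_
      map_Wq := ?_ }
  · intro heq
    have h1 : Y₁ ∈ (vInf K₁ A₀ (M' * q)).nonunits := by
      rw [heq]
      exact hY₁m
    exact hY₁u.not_mem_nonunits h1
  · apply Subtype.ext
    show ((Z + heckeAlphaBar K₁ (M' * q) q Y₁ : ModelField K₁ (M' * q * q)) :
      LaurentSeries K₁) = ((heckeBetaBar K₁ (M' * q) q X₁ : ModelField K₁ (M' * q * q)) :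
      LaurentSeries K₁)
    push_cast
    rw [coe_heckeAlphaBar, coe_heckeBetaBar, hZs, hYs, hXs, ← sX2_eq, qExpand_sX1N]
  · intro i
    obtain ⟨hc, hc'⟩ := hcα i
    rw [Polynomial.coeff_map, hωapp]
    refine ⟨(hO₂mem _).1 hc', ?_⟩
    rw [hO₂mem, hinv]
    exact hc
  · exact hr1
  · exact hr2
  · intro i
    rw [e1β, Polynomial.coeff_map, hωapp, hO₂non, hinv]
    exact hr1 i
  · have h3 : (Pα.map ω).coeff 0 / ((q : ℕ) : ModelField K₁ (M' * q)) =
        Wq (Pα.coeff 0 / ((q : ℕ) : ModelField K₁ (M' * q))) := by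
      rw [Polynomial.coeff_map, hωapp, map_div₀, map_natCast]
    rw [h3]
    refine (hO₂unit _ ?_).toVUnit
    rw [hinv]
    exact hP0u
  · intro i
    rw [e2β, Polynomial.coeff_map, hωapp, ← hO₂non]
    exact hr2 i
  · congr 1
    exact RingHom.ext hωapp


/-- **The concrete input package at level 9**, unconditional. -/
theorem modelVal3Inputs9 [Fact q.Prime] [FiniteDimensional ℚ K₁]
    (hq3 : q ≠ 3) (h9 : 9 ∣ M') (hqM : ¬ q ∣ M') (hqi : Irreducible ((q : ℕ) : A₀))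
    (Wq : ModelField K₁ (M' * q) ≃ₐ[K₁] ModelField K₁ (M' * q))
    (hWq : IsAtkinLehnerModel K₁ M' q Wq) :
    ∃ (X₁ Y₁ : ModelField K₁ (M' * q)) (Z : ModelField K₁ (M' * q * q))
      (Pα Pβ : Polynomial (ModelField K₁ (M' * q))),
      (X₁ : LaurentSeries K₁) = sX1 K₁ q ∧ (Y₁ : LaurentSeries K₁) = sY1 K₁ q ∧
      (Z : LaurentSeries K₁) = sZ K₁ q ∧
      ModelVal3Inputs K₁ A₀ M' q Wq X₁ Y₁ Z Pα Pβ :=
  modelVal3Inputs9_of (modelKron2N' M' q) (modelRed9 q) (Fermat.Agent.H79.SS2.al2Exists M' q)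
    hq3 h9 hqM hqi Wq hWq

end Package

end Fermat.Agent.H41.SS2N
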