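import Fermat.Agent.H41.SS2N.Emb3Defs9
import Fermat.Agent.H90.SS2.ModelRed
import Fermat.Agent.H6.SS2.NormZGen

/-!
# P-SS2, rows SS2-C1-RED and SS2-C1-NORMZ at level 9 (helper41)

Level-9 twins (Hauptmodul `H = h9S = t⁻¹ - 3 + …`, primes `q ≠ 3`, in particular `q = 2`) of
helper90's `Fermat.Agent.H90.SS2Red.modelRed` and helper6's `Fermat.Agent.H6.SS2.modelNormZ`.

* `redQ_delta_ne_zero_gen` : GENERIC form of helper90's argument: for `u = t⁻¹ + a₀ + …` with
  `a₀ ≢ 0 mod q`, the Frobenius defect `δ` (`u(t^q) = u^q + q δ`) has nonzero reduction.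
* `h9S_coeff_zero : (h9S k).coeff 0 = -3`.
* `modelRed9 q : ModelRedStatement q`, `modelNormZ9 q : ModelNormZStatement q`.
-/

set_option autoImplicit false
set_option linter.style.haveILetI false

namespace Fermat.Agent.H41.SS2N

open PowerSeries ModularCurve Fermat.Agent.H8.SS Fermat.Agent.H31.SS Fermat.Agent.H1.ESD
open Fermat.Agent.H90.SS2Red

noncomputable section

/-! ### the coefficient `a₀ = -3` of the Hauptmodul of level 9 -/

theorem coeff_one_ex3 (f : ℤ⟦X⟧) : coeff 1 (ex3 f) = 0 :=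
  PowerSeries.coeff_expand_of_not_dvd 3 (by norm_num) f (by norm_num)

theorem coeff_one_pA : coeff 1 pA = -12 := by
  rw [pA, Fermat.Agent.H17.ESD.eta12_trunc.coeff_eq (m := 1) (by norm_num)]
  simp [PowerSeries.coeff_mul_X_pow', map_ofNat]

theorem coeff_one_t3Num : coeff 1 t3Num = -12 := by
  rw [t3Num, coeff_one_mul, constantCoeff_pA, coeff_one_pA, coeff_one_ex3,
    constantCoeff_ex3, constantCoeff_pAinv]
  norm_num

theorem coeff_one_C_mul_X (c : ℤ) (f : ℤ⟦X⟧) :
    coeff 1 (PowerSeries.C c * X * f) = c * constantCoeff f := by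
  rw [mul_assoc, mul_comm X f, ← mul_assoc, show (1 : ℕ) = 0 + 1 from rfl,
    PowerSeries.coeff_succ_mul_X, PowerSeries.coeff_zero_eq_constantCoeff, map_mul]
  simp

theorem coeff_one_X_pow_mul (n : ℕ) (hn : 2 ≤ n) (f : ℤ⟦X⟧) :
    coeff 1 ((X : ℤ⟦X⟧) ^ n * f) = 0 := by
  rw [PowerSeries.coeff_X_pow_mul']
  rw [if_neg (by omega)]

theorem constantCoeff_X_pow_mul (n : ℕ) (hn : 1 ≤ n) (f : ℤ⟦X⟧) :
    constantCoeff ((X : ℤ⟦X⟧) ^ n * f) = 0 := by
  rw [map_mul, map_pow, PowerSeries.constantCoeff_X, zero_pow (by omega), zero_mul]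

theorem coeff_one_h9NumU : coeff 1 h9NumU = -6 := by
  have e1 : h9NumU = X ^ 4 * (1458 * t3Num) +
      ex3 t3Num * (t3Num ^ 2 + PowerSeries.C 18 * X * t3Num + X ^ 2 * 27) := by
    rw [h9NumU]
    simp only [map_ofNat]
    ring
  rw [e1, map_add, coeff_one_X_pow_mul 4 (by norm_num), coeff_one_mul, coeff_one_ex3,
    constantCoeff_ex3, constantCoeff_t3Num, map_add, map_add, coeff_one_C_mul_X,
    coeff_one_X_pow_mul 2 (by norm_num), constantCoeff_t3Num, pow_two, coeff_one_mul,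
    constantCoeff_t3Num, coeff_one_t3Num]
  norm_num

theorem coeff_one_h9DenU : coeff 1 h9DenU = -3 := by
  have e1 : h9DenU = (t3Num + PowerSeries.C 9 * X * 1) * ex3 t3Num -
      X ^ 3 * (243 * t3Num) + X ^ 4 * 729 := by
    rw [h9DenU]
    simp only [map_ofNat]
    ring
  have h1 : coeff 1 (t3Num + PowerSeries.C 9 * X * 1) = -3 := by
    rw [map_add, coeff_one_C_mul_X, coeff_one_t3Num]
    simp
  rw [e1, map_add, map_sub, coeff_one_X_pow_mul 4 (by norm_num),
    coeff_one_X_pow_mul 3 (by norm_num), coeff_one_mul, coeff_one_ex3, constantCoeff_ex3,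
    constantCoeff_t3Num, h1]
  simp

theorem coeff_one_h9DenUinv : coeff 1 h9DenUinv = 3 := by
  have h := congrArg (coeff 1) h9DenU_mul_inv
  rw [coeff_one_mul, constantCoeff_h9DenU, constantCoeff_h9DenUinv, coeff_one_h9DenU] at h
  simp at h
  linarith

theorem coeff_one_h9U : coeff 1 h9U = -3 := by
  rw [h9U, coeff_one_mul, constantCoeff_h9NumU, constantCoeff_h9DenUinv, coeff_one_h9NumU,
    coeff_one_h9DenUinv]
  norm_num

/-- `H₉ = t⁻¹ - 3 + …` -/
theorem h9S_coeff_zero (k : Type*) [CommRing k] : (h9S k).coeff 0 = -3 := by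
  rw [h9S_coeff, show (0 : ℤ) + 1 = ((1 : ℕ) : ℤ) by norm_num,
    HahnSeries.ofPowerSeries_apply_coeff, PowerSeries.coeff_map, coeff_one_h9U]
  simp

/-! ### the Frobenius defect, generic form -/

/-- GENERIC form of helper90's `redQ_delta_ne_zero`: if `ū = t⁻¹ + a₀ + …` with `a₀ ≠ 0` in
`𝔽_q`, then the Frobenius defect `δ` of `u` (`u(t^q) = u^q + q δ`) has nonzero reduction. -/
theorem redQ_delta_ne_zero_gen (q : ℕ) [NeZero q] [Fact q.Prime]
    (x δ : LaurentSeries ℤ) (hx1 : (redQ q x).coeff (-1) = 1) (hx0 : (redQ q x).coeff 0 ≠ 0)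
    (hδ : qExpand ℤ q x = x ^ q + (q : ℤ) • δ) :
    redQ q δ ≠ 0 := by
  have hq : q.Prime := Fact.out
  intro hδ0
  have hθ := theta_delta_mod q x δ hδ
  rw [hδ0, map_zero] at hθ
  set u : LaurentSeries (ZMod q) := redQ q x with hu
  set w : LaurentSeries (ZMod q) := theta u with hw
  have hu_ne : u ≠ 0 := by
    intro h0
    rw [h0] at hx1
    simp at hx1
  have hw1 : w.coeff (-1) = -1 := by
    rw [hw, theta_coeff, hx1]
    simp
  have hw0 : w.coeff 0 = 0 := by
    rw [hw, theta_coeff]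
    simp
  have hwq : w ^ q = u ^ (q - 1) * w := by
    have := sub_eq_zero.mp hθ.symm
    exact this
  have hq1 : q - 1 + 1 = q := Nat.sub_add_cancel hq.one_le
  -- `c = w / u` is fixed by Frobenius
  set c : LaurentSeries (ZMod q) := w / u with hc
  have hcu : c * u = w := div_mul_cancel₀ w hu_ne
  have hcq : c ^ q = c := by
    have hpow : ∀ y : LaurentSeries (ZMod q), y ^ q = y ^ (q - 1) * y := by
      intro y
      rw [← pow_succ, hq1]
    have h1 : c ^ q * u ^ q = c * u ^ q := by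
      rw [← mul_pow, hcu, hwq, ← hcu, hpow u]
      ring
    exact mul_right_cancel₀ (pow_ne_zero q hu_ne) h1
  have hfix : qExpand (ZMod q) q c = c := by
    rw [← Fermat.Agent.H42.laurent_pow_eq_qExpand, hcq]
  have hC := eq_C_of_qExpand_eq q hq.two_le c hfix
  set a : ZMod q := c.coeff 0 with ha
  have hwa : ∀ n : ℤ, w.coeff n = a * u.coeff n := by
    intro n
    rw [← hcu, hC, HahnSeries.C_mul_eq_smul, HahnSeries.coeff_smul, smul_eq_mul]
  have ha1 : a = -1 := by
    have := hwa (-1)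
    rw [hw1, hx1, mul_one] at this
    exact this.symm
  have h0 := hwa 0
  rw [hw0, ha1] at h0
  apply hx0
  have h' : u.coeff 0 = -(-1 * u.coeff 0) := by ring
  rw [h', ← h0, neg_zero]

/-- `δ̄ ≠ 0` for the Hauptmodul of level 9, `q ≠ 3`. -/
theorem redQ_delta_ne_zero9 (q : ℕ) [NeZero q] [Fact q.Prime] (hq3 : q ≠ 3)
    (δ : LaurentSeries ℤ) (hδ : qExpand ℤ q (h9S ℤ) = h9S ℤ ^ q + (q : ℤ) • δ) :
    redQ q δ ≠ 0 := by
  have hq : q.Prime := Fact.out
  have hu_eq : redQ q (h9S ℤ) = h9S (ZMod q) := coeffMap_h9S _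
  refine redQ_delta_ne_zero_gen q (h9S ℤ) δ ?_ ?_ hδ
  · rw [hu_eq]
    exact h9S_coeff_neg_one (ZMod q)
  · rw [hu_eq, h9S_coeff_zero]
    intro h3
    have h3' : ((3 : ℕ) : ZMod q) = 0 := by
      have : (3 : ZMod q) = 0 := by
        have := neg_eq_zero.mp h3
        exact this
      exact_mod_cast this
    have hdvd : q ∣ 3 := (ZMod.natCast_eq_zero_iff 3 q).mp h3'
    exact hq3 ((Nat.prime_dvd_prime_iff_eq hq Nat.prime_three).mp hdvd)

/-! ### the rows -/

/-- **SS2-C1-RED at level 9.** -/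
theorem modelRed9 (q : ℕ) [NeZero q] [Fact q.Prime] : ModelRedStatement q := by
  intro hq3
  have hq : q.Prime := Fact.out
  have hnd : ¬ (q : ℤ) ∣ (-1 : ℤ) := not_dvd_neg_one hq.two_le
  haveI : Fact (1 < q) := ⟨hq.one_lt⟩
  have hH1 : (sH1 ℤ q ^ q).coeff (-1) = 0 := by
    unfold sH1
    rw [← map_pow]
    exact qExpand_coeff_of_not_dvd q _ hnd
  have hH2 : (sH2 ℤ q).coeff (-1) = 0 := by
    unfold sH2
    exact qExpand_coeff_of_not_dvd q _ hnd
  refine ⟨?_, ?_, ?_⟩
  · intro h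
    have h1 := congrArg (fun z : LaurentSeries (ZMod q) => z.coeff (-1)) h
    simp only [coeffMap_coeff, HahnSeries.coeff_zero] at h1
    have hc : (sY1 ℤ q).coeff (-1) = 1 := by
      unfold sY1 sH
      rw [HahnSeries.coeff_sub, h9S_coeff_neg_one, hH1, sub_zero]
    rw [hc] at h1
    simp at h1
  · intro h
    have h1 := congrArg (fun z : LaurentSeries (ZMod q) => z.coeff (-1)) h
    simp only [coeffMap_coeff, HahnSeries.coeff_zero] at h1
    have hc : (sZ ℤ q).coeff (-1) = -1 := by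
      unfold sZ sH
      rw [HahnSeries.coeff_sub, h9S_coeff_neg_one, hH2, zero_sub]
    rw [hc] at h1
    simp at h1
  · obtain ⟨δ, hδ⟩ := exists_delta q (h9S ℤ)
    refine ⟨δ, ?_, ?_, redQ_delta_ne_zero9 q hq3 δ hδ⟩
    · unfold sX1 sH1 sH
      rw [hδ, add_sub_cancel_left, zsmul_eq_mul]
      simp
    · unfold sX2 sH2 sH1
      rw [← map_pow, ← map_sub, hδ, add_sub_cancel_left, zsmul_eq_mul, map_mul]
      simp

/-- **SS2-C1-NORMZ at level 9.** -/
theorem modelNormZ9 (q : ℕ) [NeZero q] [Fact q.Prime] : ModelNormZStatement q := by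
  intro _ Pst h
  exact Fermat.Agent.H6.SS2.normZ_gen q (h9S ℤ) (h9S_coeff_neg_one ℤ)
    (fun n hn => h9S_coeff_of_lt ℤ hn) Pst h

end

end Fermat.Agent.H41.SS2N
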