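import Fermat.Agent.H7.SS2.SmoothGen
import Fermat.Agent.H41.SS.OrdFinal3
import Fermat.Agent.H61.SS.FracH41
import Fermat.Agent.H67.SS.RegMono
import Fermat.Agent.H22.SS.LevelRegH4One

/-!
# P-SS2 row 900 (REGL), inputs (S) and (C) at the auxiliary level `3 ∣ M` (`q ≠ 3`, in
particular `q = 2`) — helper41

Level-9 twins of helper7's `Fermat.Agent.H7.SS2.smoothGenR_h4`:

* `smoothGenR_three : SmoothGenRStatement M q (3 * M)` for `q ≠ 3` prime, `q ∤ M`, `3 ∣ M`
  (level-`M` regularity in the chart `j` through the chart `t₃`,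
  `Fermat.Agent.H41.SS.modelLevelReg_j_of_three_dvd`, roots of unity of order `3 M`);
* `cuspGenR_three : CuspGenRStatement M q (3 * M)` (helper67's `cuspGenR` + monotonicity);
* `smoothGenR_aux`, `cuspGenR_aux` : both inputs at ALL auxiliary pairs with the SAME
  `R = regAuxRoot M q := if q = 2 then 3 * M else M`, which is prime to `q`.
-/

set_option autoImplicit false

noncomputable section

namespace Fermat.Agent.H41.SS2N

open Fermat.Agent.H7.SS2

/-- **INPUT (S) of REGL** for `q ≠ 3`, `3 ∣ M` (covers `q = 2`), `R = 3 M`. -/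
theorem smoothGenR_three (M q : ℕ) [NeZero M] [NeZero q] (hq : q.Prime) (hq3 : q ≠ 3)
    (hqM : ¬ q ∣ M) (h3 : 3 ∣ M) : SmoothGenRStatement M q (3 * M) :=
  smoothGenR_of M q hq hqM (3 * M)
    (Fermat.Agent.H41.SS.modelLevelReg_j_of_three_dvd M q hq hq3 hqM h3)
    (Fermat.Agent.H61.SS.modelFracH41 M q hq hqM)

/-- **INPUT (C) of REGL** at `R = 3 M`. -/
theorem cuspGenR_three (M q : ℕ) [NeZero M] [NeZero q] (hq : q.Prime) (hqM : ¬ q ∣ M) :
    CuspGenRStatement M q (3 * M) :=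
  Fermat.Agent.H67.SS.cuspGenR_of_dvd M q hq hqM
    (Nat.mul_pos (by norm_num) (Nat.pos_of_ne_zero (NeZero.ne M))) (Dvd.intro_left 3 rfl)

/-- The order of the roots of unity used by the regularity inputs at the auxiliary pair
`(M, q)`: `3 M` for `q = 2`, `M` for `q` odd.  It is prime to `q`. -/
def regAuxRoot (M q : ℕ) : ℕ := if q = 2 then 3 * M else M

theorem regAuxRoot_pos (M q : ℕ) [NeZero M] : 0 < regAuxRoot M q := by
  unfold regAuxRoot
  split_ifs
  · exact Nat.mul_pos (by norm_num) (Nat.pos_of_ne_zero (NeZero.ne M))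
  · exact Nat.pos_of_ne_zero (NeZero.ne M)

theorem regAuxRoot_coprime (M q : ℕ) (hq : q.Prime) (hqM : ¬ q ∣ M) :
    Nat.Coprime (regAuxRoot M q) q := by
  unfold regAuxRoot
  split_ifs with h2
  · subst h2
    exact Nat.Coprime.mul_left (by norm_num) ((Nat.Coprime.symm ((Nat.Prime.coprime_iff_not_dvd
      Nat.prime_two).2 hqM)))
  · exact Nat.Coprime.symm ((Nat.Prime.coprime_iff_not_dvd hq).2 hqM)

theorem not_dvd_regAuxRoot (M q : ℕ) (hq : q.Prime) (hqM : ¬ q ∣ M) :
    ¬ q ∣ regAuxRoot M q := fun h =>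
  hq.one_lt.ne' (Nat.eq_one_of_dvd_coprimes (regAuxRoot_coprime M q hq hqM) h dvd_rfl)

/-- **INPUT (S) of REGL at all auxiliary pairs**, `R = regAuxRoot M q`. -/
theorem smoothGenR_aux (M q : ℕ) [NeZero M] [NeZero q] (hq : q.Prime) (hqM : ¬ q ∣ M)
    (h4 : q ≠ 2 → 4 ∣ M) (h9 : q = 2 → 9 ∣ M) : SmoothGenRStatement M q (regAuxRoot M q) := by
  unfold regAuxRoot
  split_ifs with h2
  · have h3 : 3 ∣ M := dvd_trans (by norm_num) (h9 h2)
    have hq3 : q ≠ 3 := by rw [h2]; norm_num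
    exact smoothGenR_three M q hq hq3 hqM h3
  · exact smoothGenR_of M q hq hqM M
      (Fermat.Agent.H22.SS.modelLevelReg_h4_any M q hq h2 hqM (h4 h2) M)
      (Fermat.Agent.H61.SS.modelFracH41 M q hq hqM)

/-- **INPUT (C) of REGL at all auxiliary pairs**, `R = regAuxRoot M q`. -/
theorem cuspGenR_aux (M q : ℕ) [NeZero M] [NeZero q] (hq : q.Prime) (hqM : ¬ q ∣ M) :
    CuspGenRStatement M q (regAuxRoot M q) := by
  unfold regAuxRoot
  split_ifs with h2
  · exact cuspGenR_three M q hq hqM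
  · exact Fermat.Agent.H67.SS.cuspGenR M q hq hqM

end Fermat.Agent.H41.SS2N

end
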