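import Fermat.Agent.H41.SS2N.Val3DataOf
import Fermat.Agent.H41.SS2N.Emb3Inputs9
import Fermat.Agent.H4.SS2.Unit3
import Fermat.Agent.H4.SS2.ModelVal3B
import Fermat.Agent.H38.SS2.Gen3
import Fermat.Agent.H93.SS2.VertIff

/-!
# P-SS2 (S36), row 1112 SS2-Q2-b VAL3DATA9 (helper41): the three vertical valuations at level 9

Level-9 twin (Hauptmodul `h9S`, primes `q ≠ 3`, `9 ∣ M'`; in particular `q = 2`) of helper4's
Route B assembly `Fermat.Agent.H4.SS2.modelVal3Data_routeB`: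

* `modelVal3Data9_of` : from VERT-IFF (`H11.SS2.ModelVertIffStatement M' q`, row 1080), the
  three valuations `V₂₀, V₁₁, V₀₂` of `E = ModelField K₁ (M' q q)` with all the data of
  `H11.SS2.Val3Data`, for `X₁, Y₁, Z` with the expansions `sX1, sY1, sZ` of
  `Fermat.Agent.H41.SS2N` (Hauptmodul `h9S`);
* `modelVal3Data9` : the same from CHART-EQ (`ModelChartEqStatement M' q`, row 1078);
* `modelVal3Data9_vInf_of`, `modelVal3Data9_vInf` : the same with the concrete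
  `V₂₀ = vInf K₁ A₀ (M' q q)`;
* `val3Data_q2_of`, `val3Data_q2` : the instance `q = 2`.

Plugged in (all landed, unconditional): the generic adapter `val3Data_of_haupt`
(helper4 `val3Abs`, helper18 `dkSplit`, helper46 `dkInsep`), `modelVal3Inputs9`
(`modelKron2N'`, `modelRed9`, helper79 `al2Exists`), helper38 `modelE1` (DEG3), helper4
`modelUnit3` (UNIT3 at `h₀ = h9S ℤ`), helper93 `modelVertIff`.
-/

set_option autoImplicit false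
set_option linter.unusedSectionVars false
set_option linter.style.haveILetI false
set_option linter.unusedVariables false
set_option synthInstance.maxHeartbeats 400000
set_option maxHeartbeats 1600000

noncomputable section

namespace Fermat.Agent.H41.SS2N

open Polynomial ModularCurve AlgebraicCurve
open Fermat.Agent.H22.KL Fermat.Agent.H8.SS Fermat.Agent.H7.SS Fermat.Agent.H82.SS
open Fermat.Agent.H7.SS2 Fermat.Agent.H11.SS2 Fermat.Agent.H31.SS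

section Assembly

variable (K₁ : Type) [Field K₁] [Algebra ℚ K₁] [FiniteDimensional ℚ K₁]
  (A₀ : Type) [CommRing A₀] [IsDomain A₀]
  [IsDiscreteValuationRing A₀] [Algebra A₀ K₁] [IsFractionRing A₀ K₁]
  (M' q : ℕ) [NeZero M'] [NeZero q]

/-- **VAL3DATA at level 9** from VERT-IFF (row 1080). -/
theorem modelVal3Data9_of (hV : ModelVertIffStatement M' q)
    (hq : q.Prime) (hq3 : q ≠ 3) (h9 : 9 ∣ M') (hqM : ¬ q ∣ M')
    (hqi : Irreducible ((q : ℕ) : A₀))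
    (Wq : ModelField K₁ (M' * q) ≃ₐ[K₁] ModelField K₁ (M' * q))
    (hWq : IsAtkinLehnerModel K₁ M' q Wq) :
    ∃ (X₁ Y₁ : ModelField K₁ (M' * q)) (Z : ModelField K₁ (M' * q * q))
      (V₂₀ V₁₁ V₀₂ : ValuationSubring (ModelField K₁ (M' * q * q))),
      (X₁ : LaurentSeries K₁) = sX1 K₁ q ∧ (Y₁ : LaurentSeries K₁) = sY1 K₁ q ∧
      (Z : LaurentSeries K₁) = sZ K₁ q ∧
      Val3Data (heckeAlphaBar K₁ (M' * q) q).toRingHom (heckeBetaBar K₁ (M' * q) q).toRingHom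
        (vInf K₁ A₀ (M' * q)) (vZero K₁ A₀ (M' * q) Wq) V₂₀ V₁₁ V₀₂ q Y₁ Z := by
  haveI : Fact q.Prime := ⟨hq⟩
  have hcop : Nat.Coprime M' q := ((Nat.Prime.coprime_iff_not_dvd hq).2 hqM).symm
  obtain ⟨X₁, Y₁, Z, Pα, Pβ, hXs, hYs, hZs, hI⟩ :=
    modelVal3Inputs9 (K₁ := K₁) (A₀ := A₀) (M' := M') (q := q) hq3 h9 hqM hqi Wq hWq
  have hc : coeffMap (Int.castRingHom K₁) (h9S ℤ) = h9S K₁ := coeffMap_h9S _
  obtain ⟨V₂₀, V₁₁, V₀₂, hval⟩ :=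
    val3Data_of_haupt K₁ A₀ M' q (h9S ℤ) (h9S_coeff_neg_one ℤ)
      (fun n hn => h9S_coeff_of_lt ℤ hn) hq hqM hqi
      (Fermat.Agent.H38.SS2.modelE1 M' q hq hcop).1 hV
      (Fermat.Agent.H4.SS2.modelUnit3 M' q (h9S ℤ)) Wq hWq
      ⟨h9S K₁, h9S_mem_laurentBaseChange K₁ M' h9⟩ hc.symm X₁ Y₁ Z Pα Pβ
      (by rw [hXs, hc]; rfl) (by rw [hYs, hc]; rfl) hI
  exact ⟨X₁, Y₁, Z, V₂₀, V₁₁, V₀₂, hXs, hYs, hZs, hval⟩

/-- **VAL3DATA at level 9** from CHART-EQ (row 1078). -/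
theorem modelVal3Data9 (hC : ModelChartEqStatement M' q)
    (hq : q.Prime) (hq3 : q ≠ 3) (h9 : 9 ∣ M') (hqM : ¬ q ∣ M')
    (hqi : Irreducible ((q : ℕ) : A₀))
    (Wq : ModelField K₁ (M' * q) ≃ₐ[K₁] ModelField K₁ (M' * q))
    (hWq : IsAtkinLehnerModel K₁ M' q Wq) :
    ∃ (X₁ Y₁ : ModelField K₁ (M' * q)) (Z : ModelField K₁ (M' * q * q))
      (V₂₀ V₁₁ V₀₂ : ValuationSubring (ModelField K₁ (M' * q * q))),
      (X₁ : LaurentSeries K₁) = sX1 K₁ q ∧ (Y₁ : LaurentSeries K₁) = sY1 K₁ q ∧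
      (Z : LaurentSeries K₁) = sZ K₁ q ∧
      Val3Data (heckeAlphaBar K₁ (M' * q) q).toRingHom (heckeBetaBar K₁ (M' * q) q).toRingHom
        (vInf K₁ A₀ (M' * q)) (vZero K₁ A₀ (M' * q) Wq) V₂₀ V₁₁ V₀₂ q Y₁ Z :=
  modelVal3Data9_of K₁ A₀ M' q (Fermat.Agent.H93.SS2.modelVertIff M' q hC) hq hq3 h9 hqM hqi
    Wq hWq

/-- **VAL3DATA at level 9, concrete `V₂₀`**: the same with `V₂₀ = vInf K₁ A₀ (M' q q)`, the
Gauss valuation of `q`-expansions at level `M' q q`. -/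
theorem modelVal3Data9_vInf_of (hV : ModelVertIffStatement M' q)
    (hq : q.Prime) (hq3 : q ≠ 3) (h9 : 9 ∣ M') (hqM : ¬ q ∣ M')
    (hqi : Irreducible ((q : ℕ) : A₀))
    (Wq : ModelField K₁ (M' * q) ≃ₐ[K₁] ModelField K₁ (M' * q))
    (hWq : IsAtkinLehnerModel K₁ M' q Wq) :
    ∃ (X₁ Y₁ : ModelField K₁ (M' * q)) (Z : ModelField K₁ (M' * q * q))
      (V₁₁ V₀₂ : ValuationSubring (ModelField K₁ (M' * q * q))),
      (X₁ : LaurentSeries K₁) = sX1 K₁ q ∧ (Y₁ : LaurentSeries K₁) = sY1 K₁ q ∧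
      (Z : LaurentSeries K₁) = sZ K₁ q ∧
      Val3Data (heckeAlphaBar K₁ (M' * q) q).toRingHom (heckeBetaBar K₁ (M' * q) q).toRingHom
        (vInf K₁ A₀ (M' * q)) (vZero K₁ A₀ (M' * q) Wq)
        (vInf K₁ A₀ (M' * q * q)) V₁₁ V₀₂ q Y₁ Z := by
  obtain ⟨X₁, Y₁, Z, V₂₀, V₁₁, V₀₂, hXs, hYs, hZs, hval⟩ :=
    modelVal3Data9_of K₁ A₀ M' q hV hq hq3 h9 hqM hqi Wq hWq
  have e : vInf K₁ A₀ (M' * q * q) = V₂₀ :=
    hval.allβ₁ _ (Fermat.Agent.H4.SS2.routeB_comap_beta_vInf K₁ A₀ (M' * q) q)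
  subst e
  exact ⟨X₁, Y₁, Z, V₁₁, V₀₂, hXs, hYs, hZs, hval⟩

/-- **VAL3DATA at level 9, concrete `V₂₀`**, from CHART-EQ (row 1078). -/
theorem modelVal3Data9_vInf (hC : ModelChartEqStatement M' q)
    (hq : q.Prime) (hq3 : q ≠ 3) (h9 : 9 ∣ M') (hqM : ¬ q ∣ M')
    (hqi : Irreducible ((q : ℕ) : A₀))
    (Wq : ModelField K₁ (M' * q) ≃ₐ[K₁] ModelField K₁ (M' * q))
    (hWq : IsAtkinLehnerModel K₁ M' q Wq) :
    ∃ (X₁ Y₁ : ModelField K₁ (M' * q)) (Z : ModelField K₁ (M' * q * q))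
      (V₁₁ V₀₂ : ValuationSubring (ModelField K₁ (M' * q * q))),
      (X₁ : LaurentSeries K₁) = sX1 K₁ q ∧ (Y₁ : LaurentSeries K₁) = sY1 K₁ q ∧
      (Z : LaurentSeries K₁) = sZ K₁ q ∧
      Val3Data (heckeAlphaBar K₁ (M' * q) q).toRingHom (heckeBetaBar K₁ (M' * q) q).toRingHom
        (vInf K₁ A₀ (M' * q)) (vZero K₁ A₀ (M' * q) Wq)
        (vInf K₁ A₀ (M' * q * q)) V₁₁ V₀₂ q Y₁ Z :=
  modelVal3Data9_vInf_of K₁ A₀ M' q (Fermat.Agent.H93.SS2.modelVertIff M' q hC) hq hq3 h9 hqM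
    hqi Wq hWq

end Assembly

section Two

variable (K₁ : Type) [Field K₁] [Algebra ℚ K₁] [FiniteDimensional ℚ K₁]
  (A₀ : Type) [CommRing A₀] [IsDomain A₀]
  [IsDiscreteValuationRing A₀] [Algebra A₀ K₁] [IsFractionRing A₀ K₁]
  (M' : ℕ) [NeZero M']

/-- **VAL3DATA at `q = 2`** (row 1112), from VERT-IFF. -/
theorem val3Data_q2_of (hV : ModelVertIffStatement M' 2) (h9 : 9 ∣ M') (h2M : ¬ 2 ∣ M')
    (hqi : Irreducible (((2 : ℕ) : ℕ) : A₀))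
    (Wq : ModelField K₁ (M' * 2) ≃ₐ[K₁] ModelField K₁ (M' * 2))
    (hWq : IsAtkinLehnerModel K₁ M' 2 Wq) :
    ∃ (X₁ Y₁ : ModelField K₁ (M' * 2)) (Z : ModelField K₁ (M' * 2 * 2))
      (V₂₀ V₁₁ V₀₂ : ValuationSubring (ModelField K₁ (M' * 2 * 2))),
      (X₁ : LaurentSeries K₁) = sX1 K₁ 2 ∧ (Y₁ : LaurentSeries K₁) = sY1 K₁ 2 ∧
      (Z : LaurentSeries K₁) = sZ K₁ 2 ∧
      Val3Data (heckeAlphaBar K₁ (M' * 2) 2).toRingHom (heckeBetaBar K₁ (M' * 2) 2).toRingHom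
        (vInf K₁ A₀ (M' * 2)) (vZero K₁ A₀ (M' * 2) Wq) V₂₀ V₁₁ V₀₂ 2 Y₁ Z :=
  modelVal3Data9_of K₁ A₀ M' 2 hV Nat.prime_two (by decide) h9 h2M hqi Wq hWq

/-- **VAL3DATA at `q = 2`** (row 1112), from CHART-EQ. -/
theorem val3Data_q2 (hC : ModelChartEqStatement M' 2) (h9 : 9 ∣ M') (h2M : ¬ 2 ∣ M')
    (hqi : Irreducible (((2 : ℕ) : ℕ) : A₀))
    (Wq : ModelField K₁ (M' * 2) ≃ₐ[K₁] ModelField K₁ (M' * 2))
    (hWq : IsAtkinLehnerModel K₁ M' 2 Wq) :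
    ∃ (X₁ Y₁ : ModelField K₁ (M' * 2)) (Z : ModelField K₁ (M' * 2 * 2))
      (V₂₀ V₁₁ V₀₂ : ValuationSubring (ModelField K₁ (M' * 2 * 2))),
      (X₁ : LaurentSeries K₁) = sX1 K₁ 2 ∧ (Y₁ : LaurentSeries K₁) = sY1 K₁ 2 ∧
      (Z : LaurentSeries K₁) = sZ K₁ 2 ∧
      Val3Data (heckeAlphaBar K₁ (M' * 2) 2).toRingHom (heckeBetaBar K₁ (M' * 2) 2).toRingHom
        (vInf K₁ A₀ (M' * 2)) (vZero K₁ A₀ (M' * 2) Wq) V₂₀ V₁₁ V₀₂ 2 Y₁ Z :=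
  val3Data_q2_of K₁ A₀ M' (Fermat.Agent.H93.SS2.modelVertIff M' 2 hC) h9 h2M hqi Wq hWq

end Two

end Fermat.Agent.H41.SS2N
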