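import Fermat.Agent.H41.SS2N.Val3DataNine
import Fermat.Agent.H4.SS2.ModelVal3Final

/-!
# P-SS2 (S36), row 1112 SS2-Q2-b VAL3DATA9 (helper41): UNCONDITIONAL

Level-9 twin (Hauptmodul `h9S`, primes `q ≠ 3`, `9 ∣ M'`; in particular `q = 2`) of helper4's
`Fermat.Agent.H4.SS2.modelVal3Data`: VERT-IFF is now unconditional
(`Fermat.Agent.H4.SS2.modelVertIffU`).

* `modelVal3Data9U` : `Val3Data` for `V₂₀ = vInf K₁ A₀ (M' q q)` and some `V₁₁`, `V₀₂`, for every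
  prime `q ≠ 3`, `q ∤ M'`, `9 ∣ M'`, over every number field `K₁` and discrete valuation ring
  `A₀` of `K₁` with uniformiser `q`; same shape as `Fermat.Agent.H4.SS2.modelVal3Data`, the
  expansions are `sX1, sY1, sZ` of `Fermat.Agent.H41.SS2N` (Hauptmodul `h9S`);
* `val3Data_q2U` : the instance `q = 2`;
* `modelVal3DataAll` : BOTH cases in one statement, Hauptmodul-free conclusion:
  for every prime `q ∤ M'` with `(q ≠ 2 → 4 ∣ M')` and `(q = 2 → 9 ∣ M')` there are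
  `Y₁, Z, V₁₁, V₀₂` with `Val3Data α β vInf (vZero Wq) (vInf (M' q q)) V₁₁ V₀₂ q Y₁ Z`.
-/

set_option autoImplicit false
set_option linter.unusedSectionVars false
set_option linter.style.haveILetI false
set_option linter.unusedVariables false
set_option synthInstance.maxHeartbeats 400000
set_option maxHeartbeats 1600000

noncomputable section

namespace Fermat.Agent.H41.SS2N

open Polynomial ModularCurve AlgebraicCurve
open Fermat.Agent.H22.KL Fermat.Agent.H8.SS Fermat.Agent.H7.SS Fermat.Agent.H82.SS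
open Fermat.Agent.H7.SS2 Fermat.Agent.H11.SS2 Fermat.Agent.H31.SS

section Assembly

variable (K₁ : Type) [Field K₁] [Algebra ℚ K₁] [FiniteDimensional ℚ K₁]
  (A₀ : Type) [CommRing A₀] [IsDomain A₀]
  [IsDiscreteValuationRing A₀] [Algebra A₀ K₁] [IsFractionRing A₀ K₁]
  (M' q : ℕ) [NeZero M'] [NeZero q]

/-- **The three vertical valuations at level `M' q q`, `9 ∣ M'`** (unconditional): `V₂₀` is the
Gauss valuation of `q`-expansions. -/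
theorem modelVal3Data9U (hq : q.Prime) (hq3 : q ≠ 3) (h9 : 9 ∣ M') (hqM : ¬ q ∣ M')
    (hqi : Irreducible ((q : ℕ) : A₀))
    (Wq : ModelField K₁ (M' * q) ≃ₐ[K₁] ModelField K₁ (M' * q))
    (hWq : IsAtkinLehnerModel K₁ M' q Wq) :
    ∃ (X₁ Y₁ : ModelField K₁ (M' * q)) (Z : ModelField K₁ (M' * q * q))
      (V₁₁ V₀₂ : ValuationSubring (ModelField K₁ (M' * q * q))),
      (X₁ : LaurentSeries K₁) = sX1 K₁ q ∧ (Y₁ : LaurentSeries K₁) = sY1 K₁ q ∧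
      (Z : LaurentSeries K₁) = sZ K₁ q ∧
      Val3Data (heckeAlphaBar K₁ (M' * q) q).toRingHom (heckeBetaBar K₁ (M' * q) q).toRingHom
        (vInf K₁ A₀ (M' * q)) (vZero K₁ A₀ (M' * q) Wq)
        (vInf K₁ A₀ (M' * q * q)) V₁₁ V₀₂ q Y₁ Z :=
  modelVal3Data9_vInf_of K₁ A₀ M' q (Fermat.Agent.H4.SS2.modelVertIffU M' q) hq hq3 h9 hqM hqi
    Wq hWq

/-- **Both cases** (`q` odd with `4 ∣ M'`, Hauptmodul `h4S`; `q = 2` with `9 ∣ M'`, Hauptmodul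
`h9S`), with a Hauptmodul-free conclusion. -/
theorem modelVal3DataAll (hq : q.Prime) (hqM : ¬ q ∣ M')
    (h4 : q ≠ 2 → 4 ∣ M') (h9 : q = 2 → 9 ∣ M')
    (hqi : Irreducible ((q : ℕ) : A₀))
    (Wq : ModelField K₁ (M' * q) ≃ₐ[K₁] ModelField K₁ (M' * q))
    (hWq : IsAtkinLehnerModel K₁ M' q Wq) :
    ∃ (Y₁ : ModelField K₁ (M' * q)) (Z : ModelField K₁ (M' * q * q))
      (V₁₁ V₀₂ : ValuationSubring (ModelField K₁ (M' * q * q))),
      Val3Data (heckeAlphaBar K₁ (M' * q) q).toRingHom (heckeBetaBar K₁ (M' * q) q).toRingHom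
        (vInf K₁ A₀ (M' * q)) (vZero K₁ A₀ (M' * q) Wq)
        (vInf K₁ A₀ (M' * q * q)) V₁₁ V₀₂ q Y₁ Z := by
  haveI : Fact q.Prime := ⟨hq⟩
  by_cases hq2 : q = 2
  · have hq3 : q ≠ 3 := by omega
    obtain ⟨X₁, Y₁, Z, V₁₁, V₀₂, -, -, -, hval⟩ :=
      modelVal3Data9U K₁ A₀ M' q hq hq3 (h9 hq2) hqM hqi Wq hWq
    exact ⟨Y₁, Z, V₁₁, V₀₂, hval⟩
  · obtain ⟨X₁, Y₁, Z, V₁₁, V₀₂, -, -, -, hval⟩ :=
      Fermat.Agent.H4.SS2.modelVal3Data K₁ A₀ M' q hq2 (h4 hq2) hqM hqi Wq hWq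
    exact ⟨Y₁, Z, V₁₁, V₀₂, hval⟩

end Assembly

section Two

variable (K₁ : Type) [Field K₁] [Algebra ℚ K₁] [FiniteDimensional ℚ K₁]
  (A₀ : Type) [CommRing A₀] [IsDomain A₀]
  [IsDiscreteValuationRing A₀] [Algebra A₀ K₁] [IsFractionRing A₀ K₁]
  (M' : ℕ) [NeZero M']

/-- **VAL3DATA at `q = 2`** (row 1112), unconditional. -/
theorem val3Data_q2U (h9 : 9 ∣ M') (h2M : ¬ 2 ∣ M')
    (hqi : Irreducible (((2 : ℕ) : ℕ) : A₀))
    (Wq : ModelField K₁ (M' * 2) ≃ₐ[K₁] ModelField K₁ (M' * 2))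
    (hWq : IsAtkinLehnerModel K₁ M' 2 Wq) :
    ∃ (X₁ Y₁ : ModelField K₁ (M' * 2)) (Z : ModelField K₁ (M' * 2 * 2))
      (V₁₁ V₀₂ : ValuationSubring (ModelField K₁ (M' * 2 * 2))),
      (X₁ : LaurentSeries K₁) = sX1 K₁ 2 ∧ (Y₁ : LaurentSeries K₁) = sY1 K₁ 2 ∧
      (Z : LaurentSeries K₁) = sZ K₁ 2 ∧
      Val3Data (heckeAlphaBar K₁ (M' * 2) 2).toRingHom (heckeBetaBar K₁ (M' * 2) 2).toRingHom
        (vInf K₁ A₀ (M' * 2)) (vZero K₁ A₀ (M' * 2) Wq)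
        (vInf K₁ A₀ (M' * 2 * 2)) V₁₁ V₀₂ 2 Y₁ Z :=
  modelVal3Data9U K₁ A₀ M' 2 Nat.prime_two (by decide) h9 h2M hqi Wq hWq

end Two

end Fermat.Agent.H41.SS2N
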