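import Fermat.Agent.H4.SS2.Val3Abs
import Fermat.Agent.H18.SS2.DKSplit
import Fermat.Agent.H46.SS2.DKInsep
import Fermat.Agent.H86.SS2.Emb3Inputs
import Fermat.Agent.H1.SS2.Deg3Defs
import Fermat.Agent.H11.SS2.ModelDefs

/-!
# P-SS2 (S36), row 1112 SS2-Q2-b (helper41): `Val3Data` at the model, GENERIC adapter

`val3Data_of_inputs`: from helper86's input package `ModelVal3Inputs` (Hauptmodul-free
structure), DEG3 (`H1.SS2.ModelDeg3Statement`), VERT-IFF (`H11.SS2.ModelVertIffStatement`,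
instantiated) and the two UNIT3 facts, the three vertical valuations of level `M' q q`:
`∃ V₂₀ V₁₁ V₀₂, Val3Data α β vInf (vZero Wq) V₂₀ V₁₁ V₀₂ q Y₁ Z`, by helper4's `val3Abs`
(+ helper18's `dkSplit`, helper46's `dkInsep`).  Nothing here mentions a Hauptmodul: the same
theorem serves `q` odd (`h4S`) and `q = 2` (`h9S`).
-/

set_option autoImplicit false
set_option linter.unusedSectionVars false
set_option linter.style.haveILetI false
set_option linter.unusedVariables false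
set_option synthInstance.maxHeartbeats 400000
set_option maxHeartbeats 1600000

noncomputable section

namespace Fermat.Agent.H41.SS2N

open Polynomial ModularCurve AlgebraicCurve
open Fermat.Agent.H22.KL Fermat.Agent.H82.SS Fermat.Agent.H7.SS
open Fermat.Agent.H7.SS2 Fermat.Agent.H11.SS2

section Unif

variable (K₁ : Type) [Field K₁] [Algebra ℚ K₁] (A₀ : Type) [CommRing A₀] [IsDomain A₀]
  [IsDiscreteValuationRing A₀] [Algebra A₀ K₁] [IsFractionRing A₀ K₁] (N q : ℕ)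

/-- `q` is a uniformiser of `V_∞` (unramified base). -/
theorem dkUnif_vInf_natCast (hq : q.Prime) (hqi : Irreducible ((q : ℕ) : A₀)) :
    DKUnif (vInf K₁ A₀ N) ((q : ℕ) : ModelField K₁ N) := by
  haveI : Fact q.Prime := ⟨hq⟩
  exact Fermat.Agent.H86.SS2.isUniformiser_gaussVal_q _ (hasGNF_model K₁ A₀ N) q hqi

/-- `q` is a uniformiser of `V_0` (unramified base). -/
theorem dkUnif_vZero_natCast (hq : q.Prime) (W : ModelField K₁ N ≃ₐ[K₁] ModelField K₁ N)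
    (hqi : Irreducible ((q : ℕ) : A₀)) :
    DKUnif (vZero K₁ A₀ N W) ((q : ℕ) : ModelField K₁ N) := by
  obtain ⟨h0, h1, h2⟩ := dkUnif_vInf_natCast K₁ A₀ N q hq hqi
  refine ⟨h0, ?_, fun y hy => ?_⟩
  · rw [mem_nonunits_vZero_iff, map_natCast]
    exact h1
  · rw [mem_vZero_iff, map_div₀, map_natCast]
    exact h2 _ ((mem_nonunits_vZero_iff W y).1 hy)

/-- `V_∞` is a principal ideal ring. -/
theorem pir_vInf_of_irreducible {ϖ : A₀} (hϖ : Irreducible ϖ) :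
    IsPrincipalIdealRing (vInf K₁ A₀ N) :=
  isPrincipalIdealRing_gaussVal _ _ hϖ

/-- `V_0` is a principal ideal ring. -/
theorem pir_vZero_of_irreducible (W : ModelField K₁ N ≃ₐ[K₁] ModelField K₁ N) {ϖ : A₀}
    (hϖ : Irreducible ϖ) : IsPrincipalIdealRing (vZero K₁ A₀ N W) := by
  letI : Algebra A₀ (ModelField K₁ N) :=
    ((algebraMap K₁ (ModelField K₁ N)).comp (algebraMap A₀ K₁)).toAlgebra
  haveI : IsScalarTower A₀ K₁ (ModelField K₁ N) :=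
    IsScalarTower.of_algebraMap_eq fun _ => rfl
  exact isPrincipalIdealRing_vZero W hϖ

end Unif

section Package

variable (K₁ : Type) [Field K₁] [Algebra ℚ K₁] (A₀ : Type) [CommRing A₀] [IsDomain A₀]
  [IsDiscreteValuationRing A₀] [Algebra A₀ K₁] [IsFractionRing A₀ K₁]
  (M' q : ℕ) [NeZero M'] [NeZero q]

/-- **VAL3DATA, generic adapter** (row 1112).  Hauptmodul-free. -/
theorem val3Data_of_inputs (hq : q.Prime) (hqi : Irreducible ((q : ℕ) : A₀))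
    (Wq : ModelField K₁ (M' * q) ≃ₐ[K₁] ModelField K₁ (M' * q))
    (X₁ Y₁ : ModelField K₁ (M' * q)) (Z : ModelField K₁ (M' * q * q))
    (Pα Pβ : Polynomial (ModelField K₁ (M' * q)))
    (hIn : Fermat.Agent.H86.SS2.ModelVal3Inputs K₁ A₀ M' q Wq X₁ Y₁ Z Pα Pβ)
    (hDeg : (FiniteAlong K₁ (heckeAlphaBar K₁ (M' * q) q) ∧
        finrankAlong K₁ (heckeAlphaBar K₁ (M' * q) q) = q) ∧
      (FiniteAlong K₁ (heckeBetaBar K₁ (M' * q) q) ∧
        finrankAlong K₁ (heckeBetaBar K₁ (M' * q) q) = q))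
    (hVert : ∀ V : ValuationSubring (ModelField K₁ (M' * q * q)),
      (V.comap (heckeAlphaBar K₁ (M' * q) q).toRingHom = vInf K₁ A₀ (M' * q) ∨
        V.comap (heckeAlphaBar K₁ (M' * q) q).toRingHom = vZero K₁ A₀ (M' * q) Wq) ↔
      (V.comap (heckeBetaBar K₁ (M' * q) q).toRingHom = vInf K₁ A₀ (M' * q) ∨
        V.comap (heckeBetaBar K₁ (M' * q) q).toRingHom = vZero K₁ A₀ (M' * q) Wq))
    (hU₁ : ∀ b ∈ vInf K₁ A₀ (M' * q), Y₁ - b ^ q ∉ (vInf K₁ A₀ (M' * q)).nonunits)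
    (hU₂ : ∀ b ∈ vZero K₁ A₀ (M' * q) Wq,
      X₁ - b ^ q ∉ (vZero K₁ A₀ (M' * q) Wq).nonunits) :
    ∃ V₂₀ V₁₁ V₀₂ : ValuationSubring (ModelField K₁ (M' * q * q)),
      Val3Data (heckeAlphaBar K₁ (M' * q) q).toRingHom (heckeBetaBar K₁ (M' * q) q).toRingHom
        (vInf K₁ A₀ (M' * q)) (vZero K₁ A₀ (M' * q) Wq) V₂₀ V₁₁ V₀₂ q Y₁ Z := by
  haveI : CharZero K₁ := algebraRat.charZero K₁
  haveI : CharZero (ModelField K₁ (M' * q)) :=
    charZero_of_injective_algebraMap (algebraMap K₁ (ModelField K₁ (M' * q))).injective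
  exact Fermat.Agent.H4.SS2.val3Abs Fermat.Agent.H18.SS2.dkSplit Fermat.Agent.H46.SS2.dkInsep
    (ModelField K₁ (M' * q)) (ModelField K₁ (M' * q * q))
    (heckeAlphaBar K₁ (M' * q) q).toRingHom (heckeBetaBar K₁ (M' * q) q).toRingHom
    (vInf K₁ A₀ (M' * q)) (vZero K₁ A₀ (M' * q) Wq)
    (pir_vInf_of_irreducible K₁ A₀ (M' * q) hqi)
    (pir_vZero_of_irreducible K₁ A₀ (M' * q) Wq hqi)
    hIn.ne_O q hq (dkUnif_vInf_natCast K₁ A₀ (M' * q) q hq hqi)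
    (dkUnif_vZero_natCast K₁ A₀ (M' * q) q hq Wq hqi)
    X₁ Y₁ Z hIn.x1_O1 hIn.x1_O2 hIn.y1_O1 hIn.y1_O2 hDeg.1 hDeg.2 hVert hIn.rel
    Pα Pβ hIn.monicα hIn.degα hIn.monicβ hIn.degβ hIn.coeffα hIn.coeffβ hIn.rootα hIn.rootβ
    hIn.redα1 hIn.unitα hIn.redα2 hU₂ hIn.redβ1 hIn.unitβ hIn.redβ2 hU₁

/-- **VAL3DATA from the Props**, generic in the Hauptmodul series `h₀ = t⁻¹ + …`:
`X₁ = H₁ - H^q`, `Y₁ = H - H₁^q` (given by their expansions), the package `ModelVal3Inputs`,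
DEG3, VERT-IFF, UNIT3. -/
theorem val3Data_of_haupt [FiniteDimensional ℚ K₁] (h₀ : LaurentSeries ℤ)
    (hc : h₀.coeff (-1) = 1) (hlt : ∀ n : ℤ, n < -1 → h₀.coeff n = 0)
    (hq : q.Prime) (hqM : ¬ q ∣ M') (hqi : Irreducible ((q : ℕ) : A₀))
    (hDeg : Fermat.Agent.H1.SS2.ModelDeg3Statement (M' * q) q)
    (hVert : ModelVertIffStatement M' q)
    (hU : ModelUnit3Statement M' q h₀)
    (Wq : ModelField K₁ (M' * q) ≃ₐ[K₁] ModelField K₁ (M' * q))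
    (hWq : IsAtkinLehnerModel K₁ M' q Wq)
    (H₀ : ModelField K₁ M')
    (hH₀ : (H₀ : LaurentSeries K₁) = coeffMap (Int.castRingHom K₁) h₀)
    (X₁ Y₁ : ModelField K₁ (M' * q)) (Z : ModelField K₁ (M' * q * q))
    (Pα Pβ : Polynomial (ModelField K₁ (M' * q)))
    (hX : (X₁ : LaurentSeries K₁) = qExpand K₁ q (coeffMap (Int.castRingHom K₁) h₀) -
      coeffMap (Int.castRingHom K₁) h₀ ^ q)
    (hY : (Y₁ : LaurentSeries K₁) = coeffMap (Int.castRingHom K₁) h₀ -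
      qExpand K₁ q (coeffMap (Int.castRingHom K₁) h₀) ^ q)
    (hIn : Fermat.Agent.H86.SS2.ModelVal3Inputs K₁ A₀ M' q Wq X₁ Y₁ Z Pα Pβ) :
    ∃ V₂₀ V₁₁ V₀₂ : ValuationSubring (ModelField K₁ (M' * q * q)),
      Val3Data (heckeAlphaBar K₁ (M' * q) q).toRingHom (heckeBetaBar K₁ (M' * q) q).toRingHom
        (vInf K₁ A₀ (M' * q)) (vZero K₁ A₀ (M' * q) Wq) V₂₀ V₁₁ V₀₂ q Y₁ Z := by
  have hHs : ((heckeAlphaBar K₁ M' q H₀ : ModelField K₁ (M' * q)) : LaurentSeries K₁) =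
      coeffMap (Int.castRingHom K₁) h₀ := by
    rw [coe_heckeAlphaBar, hH₀]
  have hHqs : ((heckeBetaBar K₁ M' q H₀ : ModelField K₁ (M' * q)) : LaurentSeries K₁) =
      qExpand K₁ q (coeffMap (Int.castRingHom K₁) h₀) := by
    rw [coe_heckeBetaBar, hH₀]
  obtain ⟨hU₁, hU₂⟩ := hU hq hqM hc hlt K₁ A₀ hqi Wq hWq (heckeAlphaBar K₁ M' q H₀)
    (heckeBetaBar K₁ M' q H₀) hHs hHqs (hWq.1 H₀) (hWq.2 H₀)
  have eY : Y₁ = heckeAlphaBar K₁ M' q H₀ - heckeBetaBar K₁ M' q H₀ ^ q := by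
    apply Subtype.ext
    show (Y₁ : LaurentSeries K₁) = ((heckeAlphaBar K₁ M' q H₀ - heckeBetaBar K₁ M' q H₀ ^ q :
      ModelField K₁ (M' * q)) : LaurentSeries K₁)
    push_cast
    rw [hHs, hHqs, hY]
  have eX : X₁ = heckeBetaBar K₁ M' q H₀ - heckeAlphaBar K₁ M' q H₀ ^ q := by
    apply Subtype.ext
    show (X₁ : LaurentSeries K₁) = ((heckeBetaBar K₁ M' q H₀ - heckeAlphaBar K₁ M' q H₀ ^ q :
      ModelField K₁ (M' * q)) : LaurentSeries K₁)
    push_cast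
    rw [hHs, hHqs, hX]
  refine val3Data_of_inputs K₁ A₀ M' q hq hqi Wq X₁ Y₁ Z Pα Pβ hIn (hDeg K₁)
    (hVert hq hqM K₁ A₀ hqi Wq hWq) ?_ ?_
  · rw [eY]
    exact hU₁
  · rw [eX]
    exact hU₂

end Package

end Fermat.Agent.H41.SS2N
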